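import Mathlib
import Fermat.Prelude.Def_GaloisRep_Flat

/-!
Arithmetic of the localization of `ℤ` at a prime, as a subring of `ℚ`.
-/

set_option autoImplicit false

noncomputable section

namespace Fermat.Agent.Igusa

/-- The localization of `ℤ` at `ℓ`. -/
abbrev Lam (ℓ : ℕ) : Type := ↥(GaloisRep.ratLocalizedAt ℓ)

variable {ℓ : ℕ}

theorem mem_lam {q : ℚ} : q ∈ GaloisRep.ratLocalizedAt ℓ ↔ q.den.Coprime ℓ := Iff.rfl

theorem div_mem (a b : ℤ) (hb : IsCoprime b (ℓ : ℤ)) :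
    (a / b : ℚ) ∈ GaloisRep.ratLocalizedAt ℓ := by
  rw [mem_lam]
  have h1 : (((a / b : ℚ)).den : ℤ) ∣ b := by
    rw [← Rat.divInt_eq_div]
    exact Rat.den_dvd a b
  have h2 : IsCoprime (((a / b : ℚ)).den : ℤ) (ℓ : ℤ) := hb.of_isCoprime_of_dvd_left h1
  exact Nat.isCoprime_iff_coprime.mp h2

theorem isUnit_intCast (n : ℤ) (hn : IsCoprime n (ℓ : ℤ)) (hn0 : n ≠ 0) :
    IsUnit ((n : ℤ) : Lam ℓ) := by
  refine IsUnit.of_mul_eq_one ⟨(1 : ℤ) / (n : ℤ), div_mem 1 n hn⟩ ?_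
  apply Subtype.ext
  have : (n : ℚ) ≠ 0 := by exact_mod_cast hn0
  simp only [Subring.coe_mul, Subring.coe_intCast, Subring.coe_one]
  push_cast
  field_simp

variable [hℓ : Fact ℓ.Prime]

theorem l_ne_zero : (ℓ : Lam ℓ) ≠ 0 := by
  intro h
  have h1 := congrArg (Subtype.val) h
  simp only [Subring.coe_natCast, Subring.coe_zero] at h1
  exact hℓ.out.ne_zero (by exact_mod_cast h1)

theorem isUnit_natCast (n : ℕ) (hn : ¬ ℓ ∣ n) : IsUnit ((n : ℕ) : Lam ℓ) := by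
  have h1 : IsCoprime (n : ℤ) (ℓ : ℤ) :=
    Nat.isCoprime_iff_coprime.mpr ((Nat.Prime.coprime_iff_not_dvd hℓ.out).mpr hn).symm
  have := isUnit_intCast (ℓ := ℓ) (n : ℤ) h1 (by
    intro h
    have h2 : n = 0 := by exact_mod_cast h
    exact hn (h2 ▸ dvd_zero ℓ))
  rwa [Int.cast_natCast] at this

theorem isUnit_iff {x : Lam ℓ} : IsUnit x ↔ ¬ (ℓ : Lam ℓ) ∣ x := by
  constructor
  · rintro hx hdvd
    have hu : IsUnit (ℓ : Lam ℓ) := isUnit_of_dvd_unit hdvd hx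
    obtain ⟨y, hy⟩ := isUnit_iff_exists_inv.mp hu
    have h1 := congrArg Subtype.val hy
    simp only [Subring.coe_mul, Subring.coe_natCast, Subring.coe_one] at h1
    have hl0 : (ℓ : ℚ) ≠ 0 := by exact_mod_cast hℓ.out.ne_zero
    have h2 : (y : ℚ) = (ℓ : ℚ)⁻¹ := eq_inv_of_mul_eq_one_right h1
    have h3 := mem_lam.mp y.2
    rw [h2, Rat.inv_natCast_den] at h3
    rw [if_neg hℓ.out.ne_zero] at h3
    rw [Nat.coprime_self] at h3
    exact hℓ.out.one_lt.ne' h3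
  · intro hdvd
    have hnum : ¬ ℓ ∣ (x : ℚ).num.natAbs := by
      intro h
      apply hdvd
      obtain ⟨c, hc⟩ := Int.natCast_dvd.mpr h
      have hden : IsCoprime ((x : ℚ).den : ℤ) (ℓ : ℤ) := Nat.isCoprime_iff_coprime.mpr (mem_lam.mp x.2)
      refine ⟨⟨(c : ℤ) / ((x : ℚ).den : ℤ), div_mem c _ hden⟩, ?_⟩
      apply Subtype.ext
      simp only [Subring.coe_mul, Subring.coe_natCast]
      conv_lhs => rw [← Rat.num_div_den (x : ℚ), hc]
      push_cast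
      ring
    have hx0 : (x : ℚ) ≠ 0 := by
      intro h
      rw [h] at hnum
      exact hnum (by simp)
    have hcop : IsCoprime (x : ℚ).num (ℓ : ℤ) := by
      have h1 := ((Nat.Prime.coprime_iff_not_dvd hℓ.out).mpr hnum).symm
      have h2 := Nat.isCoprime_iff_coprime.mpr h1
      rwa [Int.isCoprime_iff_gcd_eq_one] at h2 ⊢
    refine IsUnit.of_mul_eq_one ⟨(((x : ℚ).den : ℤ) : ℚ) / (x : ℚ).num, div_mem _ _ hcop⟩ ?_
    apply Subtype.ext
    simp only [Subring.coe_mul, Subring.coe_one]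
    have h1 : ((x : ℚ).num : ℚ) ≠ 0 := by
      exact_mod_cast Rat.num_ne_zero.mpr hx0
    have h2 : ((x : ℚ).den : ℚ) ≠ 0 := by exact_mod_cast (x : ℚ).den_nz
    conv_lhs =>
      enter [1]
      rw [← Rat.num_div_den (x : ℚ)]
    push_cast
    field_simp

theorem not_isUnit_l : ¬ IsUnit (ℓ : Lam ℓ) := by
  rw [isUnit_iff, not_not]

theorem isMaximal_l : (Ideal.span {(ℓ : Lam ℓ)}).IsMaximal := by
  rw [Ideal.isMaximal_iff]
  constructor
  · rw [Ideal.mem_span_singleton]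
    intro h
    exact isUnit_iff.mp isUnit_one h
  · intro J x hJ hx hxJ
    rw [Ideal.mem_span_singleton] at hx
    have hu : IsUnit x := isUnit_iff.mpr hx
    rw [← Ideal.eq_top_iff_one]
    exact Ideal.eq_top_of_isUnit_mem J hxJ hu

theorem prime_l : Prime (ℓ : Lam ℓ) := by
  have h := isMaximal_l (ℓ := ℓ)
  exact (Ideal.span_singleton_prime l_ne_zero).mp h.isPrime

/-- every rational number becomes integral after multiplication by a power of `ℓ` -/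
theorem exists_pow_mul_mem (q : ℚ) :
    ∃ k : ℕ, (ℓ : ℚ) ^ k * q ∈ GaloisRep.ratLocalizedAt ℓ := by
  obtain ⟨m, n, hn, hq⟩ := Nat.exists_eq_pow_mul_and_not_dvd q.den_nz ℓ hℓ.out.ne_one
  refine ⟨m, ?_⟩
  have hcop : IsCoprime (n : ℤ) (ℓ : ℤ) :=
    Nat.isCoprime_iff_coprime.mpr ((Nat.Prime.coprime_iff_not_dvd hℓ.out).mpr hn).symm
  have hl0 : (ℓ : ℚ) ≠ 0 := by exact_mod_cast hℓ.out.ne_zero
  have h1 : (ℓ : ℚ) ^ m * q = (q.num : ℤ) / (n : ℤ) := by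
    conv_lhs => rw [← Rat.num_div_den q, hq]
    push_cast
    field_simp
  rw [h1]
  exact div_mem _ _ hcop

instance : IsFractionRing (Lam ℓ) ℚ where
  map_units y := by
    have h := nonZeroDivisors.ne_zero y.2
    refine isUnit_iff_ne_zero.mpr fun h1 => h (Subtype.ext h1)
  surj z := by
    obtain ⟨k, hk⟩ := exists_pow_mul_mem (ℓ := ℓ) z
    refine ⟨(⟨_, hk⟩, ⟨(ℓ : Lam ℓ) ^ k, mem_nonZeroDivisors_of_ne_zero (pow_ne_zero k l_ne_zero)⟩), ?_⟩
    show z * (((ℓ : Lam ℓ) ^ k : Lam ℓ) : ℚ) = (ℓ : ℚ) ^ k * z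
    push_cast
    ring
  exists_of_eq {x y} h := ⟨1, by rw [Subtype.ext h]⟩

instance : IsDomain (Lam ℓ) := inferInstance

instance : ValuationRing (Lam ℓ) := by
  rw [ValuationRing.iff_isInteger_or_isInteger (Lam ℓ) ℚ]
  intro x
  by_cases hx : ℓ ∣ x.den
  · right
    have hcop : ¬ ℓ ∣ x.num.natAbs := by
      intro h
      have := x.reduced
      exact hℓ.out.one_lt.ne' (Nat.dvd_one.mp (this ▸ Nat.dvd_gcd h hx))
    have hcop' : IsCoprime x.num (ℓ : ℤ) := by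
      have h1 := ((Nat.Prime.coprime_iff_not_dvd hℓ.out).mpr hcop).symm
      have h2 := Nat.isCoprime_iff_coprime.mpr h1
      rwa [Int.isCoprime_iff_gcd_eq_one] at h2 ⊢
    refine ⟨⟨_, div_mem (x.den : ℤ) x.num hcop'⟩, ?_⟩
    show (((x.den : ℤ) : ℚ) / (x.num : ℚ)) = x⁻¹
    conv_rhs => rw [← Rat.num_div_den x]
    push_cast
    rw [inv_div]
  · left
    refine ⟨⟨x, ?_⟩, rfl⟩
    rw [mem_lam]
    exact ((Nat.Prime.coprime_iff_not_dvd hℓ.out).mpr hx).symm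

instance : IsIntegrallyClosed (Lam ℓ) := inferInstance

/-- The residue field. -/
abbrev Fl (ℓ : ℕ) : Type := Lam ℓ ⧸ Ideal.span {(ℓ : Lam ℓ)}

instance : Field (Fl ℓ) :=
  haveI := isMaximal_l (ℓ := ℓ)
  Ideal.Quotient.field _

instance : CharP (Fl ℓ) ℓ := by
  refine ⟨fun n => ?_⟩
  have h1 : ((n : ℕ) : Fl ℓ) = Ideal.Quotient.mk (Ideal.span {(ℓ : Lam ℓ)}) (n : Lam ℓ) :=
    (map_natCast _ n).symm
  rw [h1, Ideal.Quotient.eq_zero_iff_mem, Ideal.mem_span_singleton]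
  constructor
  · intro h
    by_contra hn
    exact isUnit_iff.mp (isUnit_natCast n hn) h
  · rintro ⟨m, rfl⟩
    exact ⟨m, by push_cast; ring⟩

/-- A nonzero element of `Λ` is not infinitely divisible by `ℓ`. -/
theorem eq_zero_of_forall_pow_dvd {x : Lam ℓ} (h : ∀ k : ℕ, (ℓ : Lam ℓ) ^ k ∣ x) : x = 0 := by
  by_contra hx
  have hnum : (x : ℚ).num ≠ 0 := by
    rw [Ne, Rat.num_eq_zero]
    exact fun h => hx (Subtype.ext h)
  have hcop : IsCoprime ((x : ℚ).den : ℤ) (ℓ : ℤ) := Nat.isCoprime_iff_coprime.mpr (mem_lam.mp x.2)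
  have key : ∀ k : ℕ, (ℓ : ℤ) ^ k ∣ (x : ℚ).num := by
    intro k
    obtain ⟨y, hy⟩ := h k
    have h1 : (x : ℚ) = (ℓ : ℚ) ^ k * y := by
      rw [hy]
      push_cast
      ring
    have h2 : (x : ℚ).num * (y : ℚ).den = (ℓ : ℤ) ^ k * (y : ℚ).num * (x : ℚ).den := by
      have hxd : ((x : ℚ).den : ℚ) ≠ 0 := by exact_mod_cast (x : ℚ).den_nz
      have hyd : ((y : ℚ).den : ℚ) ≠ 0 := by exact_mod_cast (y : ℚ).den_nz
      have h3 : ((x : ℚ).num : ℚ) / (x : ℚ).den = (ℓ : ℚ) ^ k * (((y : ℚ).num : ℚ) / (y : ℚ).den) := by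
        rw [Rat.num_div_den, Rat.num_div_den, h1]
      have h4 : ((x : ℚ).num : ℚ) * (y : ℚ).den = (ℓ : ℚ) ^ k * (y : ℚ).num * (x : ℚ).den := by
        field_simp at h3
        linear_combination h3
      exact_mod_cast h4
    have h5 : IsCoprime ((ℓ : ℤ) ^ k) ((y : ℚ).den : ℤ) :=
      (Nat.isCoprime_iff_coprime.mpr (mem_lam.mp y.2)).symm.pow_left
    refine h5.dvd_of_dvd_mul_right ?_
    rw [h2]
    exact ⟨(y : ℚ).num * (x : ℚ).den, by ring⟩
  have h6 := key ((x : ℚ).num.natAbs)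
  have h7 := Int.natAbs_dvd_natAbs.mpr h6
  rw [Int.natAbs_pow, Int.natAbs_natCast] at h7
  have h8 := Nat.le_of_dvd (Int.natAbs_pos.mpr hnum) h7
  exact absurd h8 (not_le.mpr (Nat.lt_pow_self hℓ.out.one_lt))

end Fermat.Agent.Igusa
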