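import Mathlib

/-!
A criterion for integrality over a normal domain.
-/

set_option autoImplicit false

noncomputable section

namespace Fermat.Agent.Igusa

open Polynomial

theorem minpoly_mul {K L : Type*} [Field K] [Field L] [Algebra K L] {x : L} (hx : IsIntegral K x)
    {a : K} (ha : a ≠ 0) :
    minpoly K (algebraMap K L a * x) = (minpoly K x).scaleRoots a := by
  have hax : IsIntegral K (algebraMap K L a * x) := isIntegral_algebraMap.mul hx
  have h1 : minpoly K (algebraMap K L a * x) ∣ (minpoly K x).scaleRoots a :=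
    minpoly.dvd _ _ (scaleRoots_aeval_eq_zero (minpoly.aeval K x))
  have h2 : minpoly K x ∣ (minpoly K (algebraMap K L a * x)).scaleRoots a⁻¹ := by
    refine minpoly.dvd _ _ ?_
    have h3 := scaleRoots_aeval_eq_zero (r := a⁻¹) (minpoly.aeval K (algebraMap K L a * x))
    rwa [← mul_assoc, ← map_mul, inv_mul_cancel₀ ha, map_one, one_mul] at h3
  have hm1 := minpoly.monic hx
  have hm2 := minpoly.monic hax
  refine (eq_of_monic_of_dvd_of_natDegree_le hm2 ((monic_scaleRoots_iff a).mpr hm1) h1 ?_).symm
  rw [natDegree_scaleRoots]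
  have h4 := natDegree_le_of_dvd h2 ((monic_scaleRoots_iff a⁻¹).mpr hm2).ne_zero
  rwa [natDegree_scaleRoots] at h4

/-- If `l x` and `s x` are integral over a normal domain, `l` is prime and `l ∤ s`, then `x` is
integral. -/
theorem isIntegral_of_mul {A K L : Type*} [CommRing A] [IsDomain A] [IsIntegrallyClosed A]
    [Field K] [Field L] [Algebra A K] [IsFractionRing A K] [Algebra A L] [Algebra K L]
    [IsScalarTower A K L] {l s : A} (hl : Prime l) (hs : ¬ l ∣ s) {x : L}
    (h1 : IsIntegral A (algebraMap A L l * x)) (h2 : IsIntegral A (algebraMap A L s * x)) :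
    IsIntegral A x := by
  have hinj : Function.Injective (algebraMap A K) := IsFractionRing.injective A K
  have hl0 : algebraMap A K l ≠ 0 := by
    rw [Ne, map_eq_zero_iff _ hinj]
    exact hl.ne_zero
  have hs0 : algebraMap A K s ≠ 0 := by
    rw [Ne, map_eq_zero_iff _ hinj]
    rintro rfl
    exact hs (dvd_zero l)
  have hxK : IsIntegral K x := by
    have h3 : IsIntegral K (algebraMap A L l * x) := h1.tower_top
    have h4 : x = algebraMap K L (algebraMap A K l)⁻¹ * (algebraMap A L l * x) := by
      rw [IsScalarTower.algebraMap_apply A K L, ← mul_assoc, ← map_mul, inv_mul_cancel₀ hl0,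
        map_one, one_mul]
    rw [h4]
    exact isIntegral_algebraMap.mul h3
  set f := minpoly K x with hf
  set m := f.natDegree with hm
  have key : ∀ a : A, algebraMap A K a ≠ 0 → IsIntegral A (algebraMap A L a * x) →
      ∀ i, ∃ y : A, algebraMap A K y = f.coeff i * algebraMap A K a ^ (m - i) := by
    intro a ha hint i
    have h3 := minpoly.isIntegrallyClosed_eq_field_fractions' K hint
    rw [IsScalarTower.algebraMap_apply A K L, minpoly_mul hxK ha] at h3
    refine ⟨(minpoly A (algebraMap K L (algebraMap A K a) * x)).coeff i, ?_⟩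
    have h4 := congrArg (fun p : K[X] => p.coeff i) h3
    simp only [coeff_scaleRoots, coeff_map] at h4
    exact h4.symm
  have hcoeff : ∀ i, ∃ y : A, algebraMap A K y = f.coeff i := by
    intro i
    obtain ⟨y, hy⟩ := key l hl0 h1 i
    obtain ⟨z, hz⟩ := key s hs0 h2 i
    have h3 : s ^ (m - i) * y = l ^ (m - i) * z := by
      apply hinj
      rw [map_mul, map_mul, map_pow, map_pow, hy, hz]
      ring
    have h4 : ¬ l ∣ s ^ (m - i) := fun h => hs (hl.dvd_of_dvd_pow h)
    obtain ⟨w, hw⟩ := hl.pow_dvd_of_dvd_mul_left (m - i) h4 ⟨z, h3⟩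
    refine ⟨w, ?_⟩
    have h5 : algebraMap A K l ^ (m - i) ≠ 0 := pow_ne_zero _ hl0
    apply mul_right_cancel₀ h5
    rw [← hy, hw, map_mul, map_pow]
    ring
  have hlift : f ∈ Polynomial.lifts (algebraMap A K) :=
    (Polynomial.lifts_iff_coeff_lifts f).mpr fun i => hcoeff i
  obtain ⟨g, hg1, -, hg2⟩ := Polynomial.lifts_and_natDegree_eq_and_monic hlift
    (minpoly.monic hxK)
  refine ⟨g, hg2, ?_⟩
  rw [IsScalarTower.algebraMap_eq A K L, ← Polynomial.eval₂_map, hg1]
  exact minpoly.aeval K x

/-- The polynomial ring generated by a transcendental element. -/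
def polyEquivAdjoin' {R S : Type*} [CommRing R] [CommRing S] [Algebra R S] (t : S)
    (ht : Function.Injective (Polynomial.aeval t : Polynomial R →ₐ[R] S)) :
    Polynomial R ≃ₐ[R] Algebra.adjoin R {t} :=
  (AlgEquiv.ofInjective _ ht).trans
    (Subalgebra.equivOfEq _ _ (Algebra.adjoin_singleton_eq_range_aeval R t).symm)

theorem coe_polyEquivAdjoin' {R S : Type*} [CommRing R] [CommRing S] [Algebra R S] (t : S)
    (ht : Function.Injective (Polynomial.aeval t : Polynomial R →ₐ[R] S)) (p : Polynomial R) :
    algebraMap (Algebra.adjoin R {t}) S (polyEquivAdjoin' t ht p) = Polynomial.aeval t p := rfl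

/-- Integrality over a polynomial ring. -/
theorem isIntegral_adjoin_of_mul {R F : Type*} [CommRing R] [IsDomain R] [IsIntegrallyClosed R]
    [Field F] [Algebra R F] {t : F}
    (ht : Function.Injective (Polynomial.aeval t : Polynomial R →ₐ[R] F)) {l : R} (hl : Prime l)
    {E : Polynomial R} (hE : ¬ Polynomial.C l ∣ E) {b : F}
    (h1 : IsIntegral (Algebra.adjoin R {t}) (algebraMap R F l * b))
    (h2 : IsIntegral (Algebra.adjoin R {t}) (Polynomial.aeval t E * b)) :
    IsIntegral (Algebra.adjoin R {t}) b := by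
  let e := polyEquivAdjoin' t ht
  haveI : IsIntegrallyClosed (Algebra.adjoin R {t}) := IsIntegrallyClosed.of_equiv e.toRingEquiv
  letI : Algebra (FractionRing (Algebra.adjoin R {t})) F :=
    FractionRing.liftAlgebra (Algebra.adjoin R {t}) F
  haveI : IsScalarTower (Algebra.adjoin R {t}) (FractionRing (Algebra.adjoin R {t})) F :=
    FractionRing.isScalarTower_liftAlgebra (Algebra.adjoin R {t}) F
  have hl : Prime (e (Polynomial.C l)) := by
    have h3 : Prime (Polynomial.C l) := Polynomial.prime_C_iff.mpr hl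
    exact (MulEquiv.prime_iff e.toRingEquiv.toMulEquiv).mpr h3
  have hs : ¬ e (Polynomial.C l) ∣ e E := by
    intro h
    exact hE ((map_dvd_iff e).mp h)
  refine isIntegral_of_mul (A := Algebra.adjoin R {t})
    (K := FractionRing (Algebra.adjoin R {t})) hl hs ?_ ?_
  · have h3 : algebraMap (Algebra.adjoin R {t}) F (e (Polynomial.C l)) = algebraMap R F l := by
      rw [coe_polyEquivAdjoin', Polynomial.aeval_C]
    rw [h3]
    exact h1
  · exact h2

theorem aeval_inv_mul {R F : Type*} [CommRing R] [Field F] [Algebra R F] {t j : F}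
    (htj : t * j = 1) (P : Polynomial R) :
    Polynomial.aeval t P.reverse * j ^ P.natDegree = Polynomial.aeval j P := by
  letI : Invertible j := ⟨t, htj, by rw [mul_comm]; exact htj⟩
  exact Polynomial.eval₂_reverse_mul_pow (algebraMap R F) j P

theorem aeval_inv_injective {R F : Type*} [CommRing R] [IsDomain R] [Field F] [Algebra R F]
    {t j : F} (htj : t * j = 1)
    (hinj : Function.Injective (Polynomial.aeval j : Polynomial R →ₐ[R] F)) :
    Function.Injective (Polynomial.aeval t : Polynomial R →ₐ[R] F) := by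
  have ht0 : t ≠ 0 := left_ne_zero_of_mul_eq_one htj
  rw [injective_iff_map_eq_zero]
  intro P hP
  -- clear powers of `X`
  by_contra hne
  obtain ⟨Q, hQ, hQ0⟩ := Polynomial.exists_eq_pow_rootMultiplicity_mul_and_not_dvd P hne 0
  rw [Polynomial.C_0, sub_zero] at hQ hQ0
  have h1 : Polynomial.aeval t Q = 0 := by
    rw [hQ, map_mul, map_pow, Polynomial.aeval_X] at hP
    exact (mul_eq_zero.mp hP).resolve_left (pow_ne_zero _ ht0)
  have hQc : Q.coeff 0 ≠ 0 := fun h => hQ0 (Polynomial.X_dvd_iff.mpr h)
  have h2 := aeval_inv_mul htj Q.reverse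
  have h3 : Q.reverse.reverse = Q := by
    have h4 : Q.natTrailingDegree = 0 := Polynomial.natTrailingDegree_eq_zero.mpr (Or.inr hQc)
    ext i
    rw [Polynomial.coeff_reverse, Polynomial.coeff_reverse, Polynomial.reverse_natDegree, h4,
      Nat.sub_zero, Polynomial.revAt_invol]
  rw [h3, h1, zero_mul] at h2
  have h4 := hinj (h2.symm.trans (map_zero _).symm)
  rw [Polynomial.reverse_eq_zero] at h4
  rw [h4, Polynomial.coeff_zero] at hQc
  exact hQc rfl

theorem aeval_inv_rev_mul {R F : Type*} [CommRing R] [Field F] [Algebra R F] {t j : F}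
    (htj : t * j = 1) (D : Polynomial R) (n : ℕ) (b : F) :
    Polynomial.aeval t (Polynomial.X ^ n * D.reverse) * b =
      t ^ D.natDegree * (t ^ n * (Polynomial.aeval j D * b)) := by
  rw [map_mul, map_pow, Polynomial.aeval_X, ← aeval_inv_mul htj D]
  have h4 : t ^ D.natDegree * j ^ D.natDegree = 1 := by
    rw [← mul_pow, htj, one_pow]
  linear_combination (-(t ^ n * Polynomial.aeval t D.reverse * b)) * h4

end Fermat.Agent.Igusa
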