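import Mathlib
import Fermat.Agent.Igusa.LocZ
import Fermat.Agent.ModFun.VDegree

/-!
The modular unit modulo `ℓ`, and its integrality over `Λ[j]`.
-/

set_option autoImplicit false

noncomputable section

namespace Fermat.Agent.Igusa

open Fermat.Agent.ModFun
open UpperHalfPlane hiding I
open Complex Function
open scoped MatrixGroups

variable (ℓ : ℕ) [hℓ : Fact ℓ.Prime] (N : ℕ) [NeZero N]

/-- the root of unity -/
def zc : ℂ := Complex.exp (2 * Real.pi * Complex.I / N)

theorem zc_pow : zc N ^ N = 1 := (Complex.isPrimitiveRoot_exp N (NeZero.ne N)).pow_eq_one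

/-- The ring `Λ[ζ_N]`. -/
abbrev RR : Subalgebra (Lam ℓ) ℂ := Algebra.adjoin (Lam ℓ) {zc N}

/-- the inclusion -/
abbrev phiR : RR ℓ N →+* ℂ := algebraMap (RR ℓ N) ℂ

theorem phiR_injective : Injective (phiR ℓ N) := Subtype.val_injective

instance isIntegral_RR : Algebra.IsIntegral (Lam ℓ) (RR ℓ N) := by
  refine Algebra.IsIntegral.adjoin ?_
  intro x hx
  rw [Set.mem_singleton_iff] at hx
  subst hx
  refine ⟨Polynomial.X ^ N - 1, Polynomial.monic_X_pow_sub_C 1 (NeZero.ne N), ?_⟩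
  simp [zc_pow]

/-- the unit `ζ_N` -/
def zetaR : (RR ℓ N)ˣ where
  val := ⟨zc N, Algebra.subset_adjoin rfl⟩
  inv := ⟨zc N, Algebra.subset_adjoin rfl⟩ ^ (N - 1)
  val_inv := by
    rw [← pow_succ', Nat.sub_add_cancel (Nat.one_le_iff_ne_zero.mpr (NeZero.ne N))]
    exact Subtype.ext (zc_pow N)
  inv_val := by
    rw [← pow_succ, Nat.sub_add_cancel (Nat.one_le_iff_ne_zero.mpr (NeZero.ne N))]
    exact Subtype.ext (zc_pow N)

theorem zetaR_spec : phiR ℓ N (zetaR ℓ N) = Complex.exp (2 * Real.pi * Complex.I / N) := rfl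

variable {ℓ N}

theorem isUnit_N (hN : ¬ ℓ ∣ N) : IsUnit ((N : ℕ) : RR ℓ N) := by
  have := (isUnit_natCast (ℓ := ℓ) N hN).map (algebraMap (Lam ℓ) (RR ℓ N))
  rwa [map_natCast] at this

/-- Independence of the powers of `V` modulo `ℓ`. -/
theorem vS_indep_Fl (hN : ¬ ℓ ∣ N) (p : Polynomial (Polynomial (Fl ℓ)))
    (hp : p.natDegree < Fintype.card (XN N))
    (h0 : p.eval₂ (Polynomial.eval₂RingHom (HahnSeries.C : Fl ℓ →+* LaurentSeries (Fl ℓ))
      (ModularCurve.jqModC (Fl ℓ))) (vS (Fl ℓ) N) = 0) : p = 0 := by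
  haveI := isMaximal_l (ℓ := ℓ)
  obtain ⟨m, hm1, hm2⟩ := Ideal.exists_ideal_over_maximal_of_isIntegral
    (R := Lam ℓ) (S := RR ℓ N) (Ideal.span {(ℓ : Lam ℓ)}) (by
      have h : Injective (algebraMap (Lam ℓ) (RR ℓ N)) := by
        intro x y hxy
        have h1 := congrArg (phiR ℓ N) hxy
        have h2 : ((x : ℚ) : ℂ) = ((y : ℚ) : ℂ) := h1
        exact Subtype.ext (by exact_mod_cast h2)
      rw [(RingHom.injective_iff_ker_eq_bot _).mp h]
      exact bot_le)
  letI : Field (RR ℓ N ⧸ m) := Ideal.Quotient.field m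
  exact vS_indep (phiR_injective ℓ N) (isUnit_N hN) (zetaR_spec ℓ N) (Ideal.Quotient.mk m)
    (Ideal.quotientMap m (algebraMap (Lam ℓ) (RR ℓ N)) hm2.ge) p hp h0

/-- Independence of the powers of `V` in characteristic zero. -/
theorem vS_indep_K {K : Type*} [Field K] (ι : K →+* ℂ) (p : Polynomial (Polynomial K))
    (hp : p.natDegree < Fintype.card (XN N))
    (h0 : p.eval₂ (Polynomial.eval₂RingHom (HahnSeries.C : K →+* LaurentSeries K)
      (ModularCurve.jqModC K)) (vS K N) = 0) : p = 0 := by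
  obtain ⟨r, hr1, hr2⟩ := Nat.exists_infinite_primes (N + 1)
  haveI : Fact r.Prime := ⟨hr2⟩
  have hrN : ¬ r ∣ N := fun h => by
    have := Nat.le_of_dvd (Nat.pos_of_ne_zero (NeZero.ne N)) h
    omega
  exact vS_indep (phiR_injective r N) (isUnit_N hrN) (zetaR_spec r N) (phiR r N)
    ι p hp h0

/-- `Λ[X] → ℚ((q))` -/
def evJ (ℓ : ℕ) : Polynomial (Lam ℓ) →+* LaurentSeries ℚ :=
  Polynomial.eval₂RingHom ((HahnSeries.C : ℚ →+* LaurentSeries ℚ).comp (algebraMap (Lam ℓ) ℚ))
    (ModularCurve.jqModC ℚ)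

theorem isIntegral_polynomial {A B : Type*} [CommRing A] [CommRing B] [Algebra A B]
    [Algebra.IsIntegral A B] : (Polynomial.mapRingHom (algebraMap A B)).IsIntegral := by
  letI : Algebra (Polynomial A) (Polynomial B) := (Polynomial.mapRingHom (algebraMap A B)).toAlgebra
  intro p
  show IsIntegral (Polynomial A) p
  induction p using Polynomial.induction_on' with
  | add p q hp hq => exact hp.add hq
  | monomial n b =>
    have h1 : IsIntegral (Polynomial A) (Polynomial.C b) :=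
      (Algebra.IsIntegral.isIntegral (R := A) b).map_of_comp_eq (Polynomial.C : A →+* Polynomial A)
        (Polynomial.C : B →+* Polynomial B) (by
          ext1 a
          simp only [RingHom.comp_apply, RingHom.algebraMap_toAlgebra, Polynomial.coe_mapRingHom,
            Polynomial.map_C])
    have h2 : IsIntegral (Polynomial A) (Polynomial.X : Polynomial B) := by
      have := isIntegral_algebraMap (R := Polynomial A) (A := Polynomial B) (x := Polynomial.X)
      rwa [RingHom.algebraMap_toAlgebra, Polynomial.coe_mapRingHom, Polynomial.map_X] at this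
    rw [← Polynomial.C_mul_X_pow_eq_monomial]
    exact h1.mul (h2.pow n)

/-- The modular unit is integral over `Λ[J]`. -/
theorem exists_integral (hN : ¬ ℓ ∣ N) : ∃ P : Polynomial (Polynomial (Lam ℓ)), P.Monic ∧
    P.eval₂ (evJ ℓ) (vS ℚ N) = 0 := by
  obtain ⟨Q, hm, -, hQ⟩ := exists_charpoly (phiR_injective ℓ N) (zetaR_spec ℓ N)
    (Vfun_mem_modFun (isUnit_N hN) (zetaR_spec ℓ N)) (Vfun_isInv N)
  -- rings of functions
  let c : ∀ (B : Type) [CommRing B], (B →+* ℂ) → (B →+* (ℍ → ℂ)) := fun B _ f =>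
    Pi.ringHom fun _ => f
  let g : Polynomial (RR ℓ N) →+* (ℍ → ℂ) := Polynomial.eval₂RingHom (c _ (phiR ℓ N)) J
  letI : Algebra (Polynomial (RR ℓ N)) (ℍ → ℂ) := g.toAlgebra
  letI : Algebra (Polynomial (Lam ℓ)) (Polynomial (RR ℓ N)) :=
    (Polynomial.mapRingHom (algebraMap (Lam ℓ) (RR ℓ N))).toAlgebra
  letI : Algebra (Polynomial (Lam ℓ)) (ℍ → ℂ) :=
    (g.comp (Polynomial.mapRingHom (algebraMap (Lam ℓ) (RR ℓ N)))).toAlgebra
  haveI : IsScalarTower (Polynomial (Lam ℓ)) (Polynomial (RR ℓ N)) (ℍ → ℂ) :=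
    IsScalarTower.of_algebraMap_eq fun x => rfl
  haveI : Algebra.IsIntegral (Polynomial (Lam ℓ)) (Polynomial (RR ℓ N)) :=
    ⟨fun x => isIntegral_polynomial (A := Lam ℓ) (B := RR ℓ N) x⟩
  have hg : ∀ (P : Polynomial (RR ℓ N)) (τ : ℍ), g P τ = P.eval₂ (phiR ℓ N) (J τ) := by
    intro P τ
    have h1 : (Pi.evalRingHom (fun _ : ℍ => ℂ) τ).comp g =
        Polynomial.eval₂RingHom (phiR ℓ N) (J τ) := by
      apply Polynomial.ringHom_ext
      · intro a
        simp only [RingHom.comp_apply, g, Polynomial.coe_eval₂RingHom, Polynomial.eval₂_C]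
        rfl
      · simp only [RingHom.comp_apply, g, Polynomial.coe_eval₂RingHom, Polynomial.eval₂_X]
        rfl
    exact congrArg (fun f : Polynomial (RR ℓ N) →+* ℂ => f P) h1
  have hV : IsIntegral (Polynomial (RR ℓ N)) (Vfun N) := by
    refine ⟨Q, hm, ?_⟩
    funext τ
    have h1 : (Polynomial.eval₂ (algebraMap (Polynomial (RR ℓ N)) (ℍ → ℂ)) (Vfun N) Q) τ =
        (Q.map (Polynomial.eval₂RingHom (phiR ℓ N) (J τ))).eval (Vfun N τ) := by
      have h2 := Polynomial.hom_eval₂ Q (algebraMap (Polynomial (RR ℓ N)) (ℍ → ℂ))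
        (Pi.evalRingHom (fun _ : ℍ => ℂ) τ) (Vfun N)
      rw [Pi.evalRingHom_apply] at h2
      rw [h2, Polynomial.eval_map]
      congr 1
      exact RingHom.ext fun P => hg P τ
    rw [h1, hQ τ, Polynomial.eval_prod]
    refine Finset.prod_eq_zero (Finset.mem_univ ((1 : SL(2, ℤ)) : XN N)) ?_
    rw [conjHom_one (Vfun_isInv N)]
    simp
  obtain ⟨P, hPm, hP⟩ := isIntegral_trans (R := Polynomial (Lam ℓ)) (Vfun N) hV
  refine ⟨P, hPm, ?_⟩
  -- transfer to expansions
  have hexp : ∀ a : Polynomial (Lam ℓ), HasExp (algebraMap ℚ ℂ) (qN 1)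
      (algebraMap (Polynomial (Lam ℓ)) (ℍ → ℂ) a) (evJ ℓ a) := by
    intro a
    induction a using Polynomial.induction_on' with
    | add p q hp hq =>
      rw [map_add, map_add]
      exact hp.add hq
    | monomial n b =>
      have h3 := ((hasExp_J' (algebraMap ℚ ℂ)).pow n).smul (algebraMap (Lam ℓ) ℚ b)
      have h4 : evJ ℓ (Polynomial.monomial n b) =
          HahnSeries.C (algebraMap (Lam ℓ) ℚ b) * ModularCurve.jqModC ℚ ^ n := by
        rw [evJ, Polynomial.coe_eval₂RingHom, Polynomial.eval₂_monomial]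
        rfl
      rw [h4]
      refine h3.congr fun τ => ?_
      show _ = g (Polynomial.map (algebraMap (Lam ℓ) (RR ℓ N)) (Polynomial.monomial n b)) τ
      rw [hg, Polynomial.map_monomial, Polynomial.eval₂_monomial]
      rfl
  have hexp2 : HasExp (algebraMap ℚ ℂ) (qN 1)
      (P.eval₂ (algebraMap (Polynomial (Lam ℓ)) (ℍ → ℂ)) (Vfun N)) (P.eval₂ (evJ ℓ) (vS ℚ N)) := by
    clear hP hPm
    induction P using Polynomial.induction_on' with
    | add p q hp hq =>
      rw [Polynomial.eval₂_add, Polynomial.eval₂_add]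
      exact hp.add hq
    | monomial n b =>
      rw [Polynomial.eval₂_monomial, Polynomial.eval₂_monomial]
      exact (hexp b).mul ((hasExp_Vfun' (algebraMap ℚ ℂ) N).pow n)
  rw [hP] at hexp2
  exact hexp2.eq_zero (algebraMap ℚ ℂ).injective (isParam_qN 1)

end Fermat.Agent.Igusa
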