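import Mathlib
import Fermat.Agent.Igusa.RingR
import Fermat.Agent.ModFun.GenDegree

/-!
Representation of elements of the function field by the powers of the modular unit.
-/

set_option autoImplicit false

noncomputable section

namespace Fermat.Agent.Igusa

open Fermat.Agent.ModFun
open UpperHalfPlane hiding I
open Complex Function IntermediateField
open scoped MatrixGroups IntermediateField.algebraAdjoinAdjoin

variable {K : Type*} [Field K] {ι : K →+* ℂ} {N : ℕ} [NeZero N]

theorem vS_mem_holC (ι : K →+* ℂ) : vS K N ∈ holC ι N := by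
  refine ⟨Vfun N, ?_, Vfun_isInv N, hasExp_Vfun' ι N⟩
  exact Vfun_mem_modFun (isUnit_iff_ne_zero.mpr (by exact_mod_cast NeZero.ne N)) (zetaC_spec N)

theorem vS_mem (ι : K →+* ℂ) : vS K N ∈ IntermediateField.adjoin K (gens K N) := by
  have h1 := mem_adjoin_of_mem_holC (vS_mem_holC (N := N) ι)
  refine (IntermediateField.adjoin_le_iff.mpr ?_) h1
  rintro x (rfl | rfl)
  · exact subset_adjoin K _ jqModC_mem_gens
  · exact subset_adjoin K _ ⟨N, inferInstance, dvd_rfl, rfl⟩

/-- `V` in the function field -/
def VL (ι : K →+* ℂ) : IntermediateField.adjoin K (gens K N) := ⟨vS K N, vS_mem ι⟩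

theorem card_XN_pos : 0 < Fintype.card (XN N) :=
  Fintype.card_pos_iff.mpr ⟨((1 : SL(2, ℤ)) : XN N)⟩

/-- Sum over powers as evaluation of a polynomial. -/
theorem eval₂_sum_pow {A B : Type*} [CommRing A] [CommRing B] (f : A →+* B) (x : B) {n : ℕ}
    (c : Fin n → A) : (∑ i, Polynomial.C (c i) * Polynomial.X ^ (i : ℕ)).eval₂ f x =
      ∑ i, f (c i) * x ^ (i : ℕ) := by
  rw [Polynomial.eval₂_finsetSum]
  refine Finset.sum_congr rfl fun i _ => ?_
  rw [Polynomial.eval₂_mul, Polynomial.eval₂_C, Polynomial.eval₂_pow, Polynomial.eval₂_X]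

theorem natDegree_sum_pow_lt {A : Type*} [CommRing A] {n : ℕ} (hn : 0 < n) (c : Fin n → A) :
    (∑ i, Polynomial.C (c i) * Polynomial.X ^ (i : ℕ)).natDegree < n := by
  refine lt_of_le_of_lt (Polynomial.natDegree_sum_le_of_forall_le (n := n - 1) _ _ fun i _ => ?_)
    (by omega)
  refine (Polynomial.natDegree_C_mul_X_pow_le _ _).trans ?_
  have := i.2
  omega

theorem coeff_sum_pow {A : Type*} [CommRing A] {n : ℕ} (c : Fin n → A) (k : Fin n) :
    (∑ i, Polynomial.C (c i) * Polynomial.X ^ (i : ℕ)).coeff k = c k := by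
  rw [Polynomial.finsetSum_coeff, Finset.sum_eq_single k]
  · rw [Polynomial.coeff_C_mul_X_pow, if_pos rfl]
  · intro i _ hi
    rw [Polynomial.coeff_C_mul_X_pow, if_neg]
    exact fun h => hi (Fin.ext h.symm)
  · intro h
    exact absurd (Finset.mem_univ k) h

/-- common denominators in `ℚ(j)` -/
theorem common_denom (G : GenSet (ι) N (gens K N)) {n : ℕ} (c : Fin n → K⟮G.jF⟯) :
    ∃ (D : Polynomial K) (p : Fin n → Polynomial K), D ≠ 0 ∧
      ∀ i, Polynomial.aeval G.jF D * (c i : IntermediateField.adjoin K (gens K N)) =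
        Polynomial.aeval G.jF (p i) := by
  obtain ⟨b, hb⟩ := IsLocalization.exist_integer_multiples_of_finite
    (nonZeroDivisors (Algebra.adjoin K {G.jF})) c
  have hsurj : ∀ x : Algebra.adjoin K {G.jF}, ∃ P : Polynomial K,
      Polynomial.aeval G.jF P = (x : IntermediateField.adjoin K (gens K N)) := by
    intro x
    have h1 : (x : IntermediateField.adjoin K (gens K N)) ∈
        (Polynomial.aeval G.jF :
          Polynomial K →ₐ[K] IntermediateField.adjoin K (gens K N)).range := by
      rw [← Algebra.adjoin_singleton_eq_range_aeval]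
      exact x.2
    exact h1
  obtain ⟨D, hD⟩ := hsurj b
  have h2 : ∀ i, ∃ P : Polynomial K, Polynomial.aeval G.jF D *
      (c i : IntermediateField.adjoin K (gens K N)) = Polynomial.aeval G.jF P := by
    intro i
    obtain ⟨r, hr⟩ := hb i
    obtain ⟨P, hP⟩ := hsurj r
    refine ⟨P, ?_⟩
    rw [hP, hD]
    have h3 := congrArg (fun z : K⟮G.jF⟯ => (z : IntermediateField.adjoin K (gens K N))) hr
    rw [Algebra.smul_def] at h3
    exact h3.symm
  choose p hp using h2
  refine ⟨D, p, ?_, hp⟩
  rintro rfl
  have h3 := nonZeroDivisors.ne_zero b.2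
  apply h3
  apply Subtype.ext
  rw [← hD, map_zero]
  rfl

theorem coe_aeval_jF (G : GenSet (ι) N (gens K N)) (P : Polynomial K) :
    ((Polynomial.aeval G.jF P : IntermediateField.adjoin K (gens K N)) : LaurentSeries K) =
      Polynomial.eval₂RingHom (HahnSeries.C : K →+* LaurentSeries K)
        (ModularCurve.jqModC K) P := by
  rw [Polynomial.coe_eval₂RingHom, ← aeval_jq]
  have h1 : ((Polynomial.aeval G.jF P : IntermediateField.adjoin K (gens K N)) : LaurentSeries K) =
      algebraMap (IntermediateField.adjoin K (gens K N)) (LaurentSeries K)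
        (Polynomial.aeval G.jF P) := rfl
  rw [h1, ← Polynomial.aeval_algebraMap_apply]
  rfl

theorem eval₂jq_ne_zero {P : Polynomial K} (hP : P ≠ 0) :
    Polynomial.eval₂RingHom (HahnSeries.C : K →+* LaurentSeries K)
        (ModularCurve.jqModC K) P ≠ 0 := by
  intro h
  exact hP (eval₂_jq_injective (by rw [h, map_zero]))

theorem linearIndependent_VL (G : GenSet (ι) N (gens K N)) :
    LinearIndependent K⟮G.jF⟯ (fun i : Fin (Fintype.card (XN N)) =>
      (VL ι : IntermediateField.adjoin K (gens K N)) ^ (i : ℕ)) := by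
  rw [Fintype.linearIndependent_iff]
  intro c hc
  obtain ⟨D, p, hD, hp⟩ := common_denom G c
  have h1 := vS_indep_K (N := N) ι (∑ i, Polynomial.C (p i) * Polynomial.X ^ (i : ℕ))
    (natDegree_sum_pow_lt card_XN_pos p) (by
      rw [eval₂_sum_pow]
      have h2 := congrArg (fun z : IntermediateField.adjoin K (gens K N) =>
        ((Polynomial.aeval G.jF D * z : IntermediateField.adjoin K (gens K N)) :
          LaurentSeries K)) hc
      simp only [mul_zero, Finset.mul_sum] at h2
      have h3 : ∀ i, Polynomial.aeval G.jF D * (c i • (VL ι : IntermediateField.adjoin K (gens K N)) ^ (i : ℕ)) =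
          Polynomial.aeval G.jF (p i) * VL ι ^ (i : ℕ) := by
        intro i
        rw [← hp i, Algebra.smul_def, mul_assoc]
        rfl
      simp only [h3] at h2
      have h4 : ∀ z : Fin (Fintype.card (XN N)) → IntermediateField.adjoin K (gens K N),
          ((∑ i, z i : IntermediateField.adjoin K (gens K N)) : LaurentSeries K) =
            ∑ i, (z i : LaurentSeries K) := fun z =>
        map_sum (algebraMap (IntermediateField.adjoin K (gens K N)) (LaurentSeries K)) z _
      rw [h4] at h2
      refine Eq.trans ?_ h2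
      refine Finset.sum_congr rfl fun i _ => ?_
      rw [IntermediateField.coe_mul, coe_aeval_jF]
      rfl)
  intro i
  have h2 : p i = 0 := by
    rw [← coeff_sum_pow p i, h1, Polynomial.coeff_zero]
  have h3 := hp i
  rw [h2, map_zero] at h3
  rcases mul_eq_zero.mp h3 with h4 | h4
  · exfalso
    have h5 := coe_aeval_jF G D
    rw [h4] at h5
    exact eval₂jq_ne_zero hD h5.symm
  · exact Subtype.ext h4

/-- Every element of the function field is a combination of powers of `V`. -/
theorem exists_repK (ι : K →+* ℂ) {g : LaurentSeries K}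
    (hg : g ∈ IntermediateField.adjoin K (gens K N)) :
    ∃ (D : Polynomial K) (p : Fin (Fintype.card (XN N)) → Polynomial K), D ≠ 0 ∧
      Polynomial.eval₂RingHom (HahnSeries.C : K →+* LaurentSeries K)
        (ModularCurve.jqModC K) D * g = ∑ i, Polynomial.eval₂RingHom
          (HahnSeries.C : K →+* LaurentSeries K) (ModularCurve.jqModC K) (p i) *
          vS K N ^ (i : ℕ) := by
  have G := genSet_gens ι N
  haveI := G.finiteDimensional
  have h1 := (linearIndependent_VL G).span_eq_top_of_card_eq_finrank' (by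
    rw [Fintype.card_fin, G.finrank_eq])
  have h2 : (⟨g, hg⟩ : IntermediateField.adjoin K (gens K N)) ∈ Submodule.span K⟮G.jF⟯
      (Set.range (fun i : Fin (Fintype.card (XN N)) =>
      (VL ι : IntermediateField.adjoin K (gens K N)) ^ (i : ℕ))) := by
    rw [h1]
    trivial
  obtain ⟨c, hc⟩ := (Submodule.mem_span_range_iff_exists_fun _).mp h2
  obtain ⟨D, p, hD, hp⟩ := common_denom G c
  refine ⟨D, p, hD, ?_⟩
  have h5 := congrArg (fun z : IntermediateField.adjoin K (gens K N) =>
        ((Polynomial.aeval G.jF D * z : IntermediateField.adjoin K (gens K N)) :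
          LaurentSeries K)) hc
  simp only [Finset.mul_sum] at h5
  have h3 : ∀ i, Polynomial.aeval G.jF D * (c i • (VL ι : IntermediateField.adjoin K (gens K N)) ^ (i : ℕ)) =
      Polynomial.aeval G.jF (p i) * VL ι ^ (i : ℕ) := by
    intro i
    rw [← hp i, Algebra.smul_def, mul_assoc]
    rfl
  simp only [h3] at h5
  have h4 : ∀ z : Fin (Fintype.card (XN N)) → IntermediateField.adjoin K (gens K N),
      ((∑ i, z i : IntermediateField.adjoin K (gens K N)) : LaurentSeries K) =
        ∑ i, (z i : LaurentSeries K) := fun z =>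
    map_sum (algebraMap (IntermediateField.adjoin K (gens K N)) (LaurentSeries K)) z _
  rw [h4, IntermediateField.coe_mul, coe_aeval_jF] at h5
  refine h5.symm.trans ?_
  refine Finset.sum_congr rfl fun i _ => ?_
  rw [IntermediateField.coe_mul, coe_aeval_jF]
  rfl

end Fermat.Agent.Igusa
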