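import Mathlib
import Fermat.Agent.Igusa.RingR

/-!
Laurent series with coefficients in the localization `Λ` of `ℤ` at `ℓ`.
-/

set_option autoImplicit false

noncomputable section

namespace Fermat.Agent.Igusa

open Fermat.Agent.ModFun
open Function

section VB

variable {R : Type*} [CommRing R]

/-- vanishing below `a` -/
def VB (f : LaurentSeries R) (a : ℤ) : Prop := ∀ k < a, f.coeff k = 0

theorem vb_iff {f : LaurentSeries R} {a : ℤ} : VB f a ↔ ∃ P : PowerSeries R,
    PowerSeries.constantCoeff P = f.coeff a ∧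
    f = HahnSeries.single a 1 * HahnSeries.ofPowerSeries ℤ R P := by
  constructor
  · intro h1
    refine ⟨PowerSeries.mk fun n => f.coeff (a + n), ?_, ?_⟩
    · rw [← PowerSeries.coeff_zero_eq_constantCoeff_apply, PowerSeries.coeff_mk]
      simp
    · ext k
      have h3 := HahnSeries.coeff_single_mul (r := (1 : R)) (x := HahnSeries.ofPowerSeries ℤ R
        (PowerSeries.mk fun n => f.coeff (a + n))) (a := k) (b := a)
      rw [h3, one_mul]
      by_cases hk : k < a
      · rw [h1 k hk, ModularCurve.ofPowerSeries_coeff_of_neg _ (by omega)]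
      · have hk' : ((k - a).toNat : ℤ) = k - a := Int.toNat_of_nonneg (by omega)
        rw [← hk', HahnSeries.ofPowerSeries_apply_coeff, PowerSeries.coeff_mk]
        congr 1
        omega
  · rintro ⟨P, -, rfl⟩ k hk
    have h3 := HahnSeries.coeff_single_mul (r := (1 : R)) (x := HahnSeries.ofPowerSeries ℤ R
        P) (a := k) (b := a)
    rw [h3, ModularCurve.ofPowerSeries_coeff_of_neg _ (by omega), mul_zero]

theorem VB.mul_coeff {f g : LaurentSeries R} {a b : ℤ} (hf : VB f a) (hg : VB g b) :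
    VB (f * g) (a + b) ∧ (f * g).coeff (a + b) = f.coeff a * g.coeff b := by
  obtain ⟨P, hP, hf⟩ := vb_iff.mp hf
  obtain ⟨Q, hQ, hg⟩ := vb_iff.mp hg
  have h1 : f * g = HahnSeries.single (a + b) 1 * HahnSeries.ofPowerSeries ℤ R (P * Q) := by
    rw [map_mul, ← one_mul (1 : R), ← HahnSeries.single_mul_single]
    conv_lhs => rw [hf, hg]
    ring
  have h3 := fun k => HahnSeries.coeff_single_mul (r := (1 : R)) (x := HahnSeries.ofPowerSeries ℤ R
        (P * Q)) (a := k) (b := a + b)
  constructor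
  · intro k hk
    rw [h1, h3, ModularCurve.ofPowerSeries_coeff_of_neg _ (by omega), mul_zero]
  · rw [h1, h3, one_mul, sub_self, show (0 : ℤ) = ((0 : ℕ) : ℤ) from rfl,
      HahnSeries.ofPowerSeries_apply_coeff, PowerSeries.coeff_zero_eq_constantCoeff_apply, map_mul,
      hP, hQ]

theorem VB.pow_coeff {f : LaurentSeries R} {a : ℤ} (hf : VB f a) (n : ℕ) :
    VB (f ^ n) (n * a) ∧ (f ^ n).coeff (n * a) = f.coeff a ^ n := by
  induction n with
  | zero =>
    rw [pow_zero, pow_zero, Nat.cast_zero, zero_mul]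
    refine ⟨fun k hk => ?_, ?_⟩
    · rw [HahnSeries.coeff_one, if_neg hk.ne]
    · rw [HahnSeries.coeff_one, if_pos rfl]
  | succ n ih =>
    have h := ih.1.mul_coeff hf
    rw [show ((n : ℤ) * a + a) = ((n + 1 : ℕ) : ℤ) * a by push_cast; ring] at h
    rw [pow_succ, pow_succ]
    exact ⟨h.1, by rw [h.2, ih.2]⟩

end VB

variable (ℓ : ℕ) [hℓ : Fact ℓ.Prime]

/-- The inclusion `Λ((q)) → ℚ((q))`. -/
abbrev incQ : LaurentSeries (Lam ℓ) →+* LaurentSeries ℚ :=
  ModularCurve.coeffMap (algebraMap (Lam ℓ) ℚ)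

/-- Series with coefficients in `Λ`. -/
abbrev LL : Subring (LaurentSeries ℚ) := (incQ ℓ).range

variable {ℓ}

theorem incQ_injective : Injective (incQ ℓ) := by
  intro f g h
  ext n
  have h1 := congrArg (fun F : LaurentSeries ℚ => F.coeff n) h
  simp only [ModularCurve.coeffMap_coeff] at h1
  exact h1

theorem mem_LL {f : LaurentSeries ℚ} :
    f ∈ LL ℓ ↔ ∀ n, f.coeff n ∈ GaloisRep.ratLocalizedAt ℓ := by
  constructor
  · rintro ⟨g, rfl⟩ n
    rw [ModularCurve.coeffMap_coeff]
    exact (g.coeff n).2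
  · intro h
    refine ⟨⟨fun n => ⟨f.coeff n, h n⟩, ?_⟩, ?_⟩
    · refine f.isPWO_support.mono fun n hn => ?_
      rw [HahnSeries.mem_support]
      rw [Function.mem_support] at hn
      exact fun h0 => hn (Subtype.ext h0)
    · ext n
      rw [ModularCurve.coeffMap_coeff]
      rfl

theorem C_mem_LL (a : Lam ℓ) : (HahnSeries.C (a : ℚ) : LaurentSeries ℚ) ∈ LL ℓ := by
  refine ⟨HahnSeries.C a, ?_⟩
  ext n
  rw [ModularCurve.coeffMap_coeff, HahnSeries.C_apply, HahnSeries.C_apply]
  by_cases hn : n = 0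
  · subst hn
    rw [HahnSeries.coeff_single_same, HahnSeries.coeff_single_same]
    rfl
  · rw [HahnSeries.coeff_single_of_ne hn, HahnSeries.coeff_single_of_ne hn, map_zero]

theorem single_mem_LL (k : ℤ) {a : ℚ} (ha : a ∈ GaloisRep.ratLocalizedAt ℓ) :
    (HahnSeries.single k a : LaurentSeries ℚ) ∈ LL ℓ := by
  rw [mem_LL]
  intro n
  by_cases hn : n = k
  · subst hn
    rw [HahnSeries.coeff_single_same]
    exact ha
  · rw [HahnSeries.coeff_single_of_ne hn]
    exact zero_mem _

theorem jq_mem_LL : ModularCurve.jq ∈ LL ℓ := by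
  refine ⟨ModularCurve.jqModC (Lam ℓ), ?_⟩
  rw [Fermat.Agent.ModFun.coeffMap_jqModC]
  rfl

/-- almost integral rational numbers are integral -/
theorem mem_lam_of_almost {ρ : ℚ} {δ : Lam ℓ} (hδ : δ ≠ 0)
    (h : ∀ m : ℕ, (δ : ℚ) * ρ ^ m ∈ GaloisRep.ratLocalizedAt ℓ) :
    ρ ∈ GaloisRep.ratLocalizedAt ℓ := by
  by_contra hρ
  have hρ0 : ρ ≠ 0 := by
    rintro rfl
    exact hρ (zero_mem _)
  have h1 := (ValuationRing.iff_isInteger_or_isInteger (Lam ℓ) ℚ).mp inferInstance ρ
  rcases h1 with h1 | h1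
  · obtain ⟨x, hx⟩ := h1
    apply hρ
    rw [← hx]
    exact x.2
  · obtain ⟨x, hx⟩ := h1
    have hx' : (x : ℚ) = ρ⁻¹ := hx
    have hdvd : (ℓ : Lam ℓ) ∣ x := by
      by_contra hnd
      obtain ⟨y, hy⟩ := isUnit_iff_exists_inv.mp (isUnit_iff.mpr hnd)
      have h2 := congrArg Subtype.val hy
      simp only [Subring.coe_mul, Subring.coe_one, hx'] at h2
      apply hρ
      have h3 : (y : ℚ) = ρ := by
        field_simp at h2
        exact h2
      rw [← h3]
      exact y.2
    apply hδ
    apply eq_zero_of_forall_pow_dvd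
    intro m
    have h2 : δ = ⟨_, h m⟩ * x ^ m := by
      apply Subtype.ext
      simp only [Subring.coe_mul, Subring.coe_pow, hx']
      rw [mul_assoc, ← mul_pow, mul_inv_cancel₀ hρ0, one_pow, mul_one]
    rw [h2]
    exact (pow_dvd_pow_of_dvd hdvd m).mul_left _

/-- almost integral series have integral coefficients -/
theorem mem_LL_of_almost {x : LaurentSeries ℚ} (hx : IsAlmostIntegral (LL ℓ) x) : x ∈ LL ℓ := by
  have key : ∀ (n : ℕ) (a : ℤ) (x : LaurentSeries ℚ), VB x a → IsAlmostIntegral (LL ℓ) x →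
      x.coeff (a + n) ∈ GaloisRep.ratLocalizedAt ℓ := by
    intro n
    induction n with
    | zero =>
      rintro a x ha ⟨d, hd, hd'⟩
      have hd0 : (d : LaurentSeries ℚ) ≠ 0 := fun h =>
        nonZeroDivisors.ne_zero hd (Subtype.ext h)
      have hcoeff : (d : LaurentSeries ℚ).coeff (d : LaurentSeries ℚ).order ≠ 0 :=
        HahnSeries.coeff_order_eq_zero.not.2 hd0
      have hdL := mem_LL.mp d.2
      have hdV : VB (d : LaurentSeries ℚ) (d : LaurentSeries ℚ).order := fun k hk =>
        HahnSeries.coeff_eq_zero_of_lt_order hk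
      rw [Nat.cast_zero, add_zero]
      refine mem_lam_of_almost (δ := ⟨_, hdL (d : LaurentSeries ℚ).order⟩)
        (fun h => hcoeff (congrArg Subtype.val h)) fun m => ?_
      have h1 := (hdV.mul_coeff (ha.pow_coeff m).1).2
      rw [(ha.pow_coeff m).2] at h1
      show (d : LaurentSeries ℚ).coeff (d : LaurentSeries ℚ).order * x.coeff a ^ m ∈ _
      rw [← h1]
      obtain ⟨r, hr⟩ := hd' m
      have h2 : (d : LaurentSeries ℚ) * x ^ m = r := hr.symm
      rw [h2]
      exact mem_LL.mp r.2 _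
    | succ n ih =>
      intro a x ha hx
      have h0 : x.coeff a ∈ GaloisRep.ratLocalizedAt ℓ := by
        obtain ⟨d, hd, hd'⟩ := hx
        have hd0 : (d : LaurentSeries ℚ) ≠ 0 := fun h =>
          nonZeroDivisors.ne_zero hd (Subtype.ext h)
        have hcoeff : (d : LaurentSeries ℚ).coeff (d : LaurentSeries ℚ).order ≠ 0 :=
          HahnSeries.coeff_order_eq_zero.not.2 hd0
        have hdL := mem_LL.mp d.2
        have hdV : VB (d : LaurentSeries ℚ) (d : LaurentSeries ℚ).order := fun k hk =>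
          HahnSeries.coeff_eq_zero_of_lt_order hk
        refine mem_lam_of_almost (δ := ⟨_, hdL (d : LaurentSeries ℚ).order⟩)
          (fun h => hcoeff (congrArg Subtype.val h)) fun m => ?_
        have h1 := (hdV.mul_coeff (ha.pow_coeff m).1).2
        rw [(ha.pow_coeff m).2] at h1
        show (d : LaurentSeries ℚ).coeff (d : LaurentSeries ℚ).order * x.coeff a ^ m ∈ _
        rw [← h1]
        obtain ⟨r, hr⟩ := hd' m
        have h2 : (d : LaurentSeries ℚ) * x ^ m = r := hr.symm
        rw [h2]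
        exact mem_LL.mp r.2 _
      have hs : IsAlmostIntegral (LL ℓ) (HahnSeries.single a (x.coeff a) : LaurentSeries ℚ) :=
        (completeIntegralClosure (LL ℓ) (LaurentSeries ℚ)).algebraMap_mem
          ⟨_, single_mem_LL a h0⟩
      have h1 := ih (a + 1) (x - HahnSeries.single a (x.coeff a)) (by
        intro k hk
        rw [HahnSeries.coeff_sub]
        rcases lt_or_eq_of_le (Int.lt_add_one_iff.mp hk) with h | h
        · rw [ha k h, HahnSeries.coeff_single_of_ne h.ne, sub_zero]
        · subst h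
          rw [HahnSeries.coeff_single_same, sub_self])
        ((completeIntegralClosure (LL ℓ) (LaurentSeries ℚ)).sub_mem hx hs)
      rw [HahnSeries.coeff_sub, HahnSeries.coeff_single_of_ne (by omega), sub_zero] at h1
      rwa [show a + ((n + 1 : ℕ) : ℤ) = a + 1 + (n : ℤ) by push_cast; ring]
  rw [mem_LL]
  intro n
  by_cases hn : n < x.order
  · rw [HahnSeries.coeff_eq_zero_of_lt_order hn]
    exact zero_mem _
  · have := key (n - x.order).toNat x.order x
      (fun k hk => HahnSeries.coeff_eq_zero_of_lt_order hk) hx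
    rwa [show x.order + ((n - x.order).toNat : ℤ) = n by omega] at this

end Fermat.Agent.Igusa
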