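import Mathlib
import Fermat.Agent.Igusa.Series
import Fermat.Agent.Igusa.RepK

/-!
Representation of elements of the function field by the powers of the modular unit.
-/

set_option autoImplicit false

noncomputable section

namespace Fermat.Agent.Igusa

open Fermat.Agent.ModFun
open UpperHalfPlane hiding I
open Complex Function IntermediateField
open scoped MatrixGroups IntermediateField.algebraAdjoinAdjoin

variable {ℓ : ℕ} [hℓ : Fact ℓ.Prime] {N : ℕ} [NeZero N]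

/-- clearing rational denominators in polynomials -/
theorem exists_lift_poly (P : Polynomial ℚ) : ∃ k₀ : ℕ, ∀ k ≥ k₀,
    ∃ Q : Polynomial (Lam ℓ), Q.map (algebraMap (Lam ℓ) ℚ) = Polynomial.C ((ℓ : ℚ) ^ k) * P := by
  induction P using Polynomial.induction_on' with
  | add P Q hP hQ =>
    obtain ⟨a, ha⟩ := hP
    obtain ⟨b, hb⟩ := hQ
    refine ⟨max a b, fun k hk => ?_⟩
    obtain ⟨P', hP'⟩ := ha k (le_of_max_le_left hk)
    obtain ⟨Q', hQ'⟩ := hb k (le_of_max_le_right hk)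
    exact ⟨P' + Q', by rw [Polynomial.map_add, hP', hQ', mul_add]⟩
  | monomial n a =>
    obtain ⟨k₀, hk₀⟩ := exists_pow_mul_mem (ℓ := ℓ) a
    refine ⟨k₀, fun k hk => ?_⟩
    have h1 : (ℓ : ℚ) ^ k * a ∈ GaloisRep.ratLocalizedAt ℓ := by
      have h2 : (ℓ : ℚ) ^ k * a = ((ℓ : Lam ℓ) ^ (k - k₀) : Lam ℓ) * ((ℓ : ℚ) ^ k₀ * a) := by
        push_cast
        rw [← mul_assoc, ← pow_add, Nat.sub_add_cancel hk]
      rw [h2]
      exact mul_mem (Subtype.mem _) hk₀
    refine ⟨Polynomial.monomial n ⟨_, h1⟩, ?_⟩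
    rw [Polynomial.map_monomial, Polynomial.C_mul_monomial]
    rfl

theorem evJ_apply (Q : Polynomial (Lam ℓ)) : evJ ℓ Q =
    Polynomial.eval₂RingHom (HahnSeries.C : ℚ →+* LaurentSeries ℚ)
        (ModularCurve.jqModC ℚ) (Q.map (algebraMap (Lam ℓ) ℚ)) := by
  rw [evJ, Polynomial.coe_eval₂RingHom, Polynomial.coe_eval₂RingHom, Polynomial.eval₂_map]

theorem exists_rep {g : LaurentSeries ℚ} (hg : g ∈ ModularCurve.modularFunctionFieldFull N) :
    ∃ (D : Polynomial (Lam ℓ)) (p : Polynomial (Polynomial (Lam ℓ))), D ≠ 0 ∧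
      p.natDegree < Fintype.card (XN N) ∧ evJ ℓ D * g = p.eval₂ (evJ ℓ) (vS ℚ N) := by
  obtain ⟨D, p, hD, hp⟩ := exists_repK (N := N) (algebraMap ℚ ℂ) (g := g) hg
  -- clear rational denominators
  obtain ⟨k₁, hk₁⟩ := exists_lift_poly (ℓ := ℓ) D
  have h3 := fun i => exists_lift_poly (ℓ := ℓ) (p i)
  choose k₂ hk₂ using h3
  let k := k₁ + ∑ i, k₂ i
  obtain ⟨D', hD'⟩ := hk₁ k (Nat.le_add_right _ _)
  have h4 : ∀ i, ∃ Q : Polynomial (Lam ℓ),
      Q.map (algebraMap (Lam ℓ) ℚ) = Polynomial.C ((ℓ : ℚ) ^ k) * p i := fun i =>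
    hk₂ i k ((Finset.single_le_sum (f := k₂) (fun _ _ => Nat.zero_le _)
      (Finset.mem_univ i)).trans (Nat.le_add_left _ _))
  choose p' hp' using h4
  have hl0 : (ℓ : ℚ) ≠ 0 := by exact_mod_cast hℓ.out.ne_zero
  refine ⟨D', ∑ i, Polynomial.C (p' i) * Polynomial.X ^ (i : ℕ), ?_,
    natDegree_sum_pow_lt card_XN_pos p', ?_⟩
  · rintro rfl
    rw [Polynomial.map_zero] at hD'
    rcases mul_eq_zero.mp hD'.symm with h | h
    · rw [Polynomial.C_eq_zero] at h
      exact pow_ne_zero k hl0 h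
    · exact hD h
  · rw [eval₂_sum_pow]
    simp only [evJ_apply, hD', hp', map_mul]
    rw [mul_assoc]
    simp only [mul_assoc]
    rw [← Finset.mul_sum, hp]

/-- `Λ[X] → Λ((q))` -/
def evJL (ℓ : ℕ) : Polynomial (Lam ℓ) →+* LaurentSeries (Lam ℓ) :=
  Polynomial.eval₂RingHom HahnSeries.C (ModularCurve.jqModC (Lam ℓ))

theorem coeffMap_C {A B : Type*} [CommRing A] [CommRing B] (f : A →+* B) (a : A) :
    ModularCurve.coeffMap f (HahnSeries.C a : LaurentSeries A) = HahnSeries.C (f a) := by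
  ext n
  rw [ModularCurve.coeffMap_coeff, HahnSeries.C_apply, HahnSeries.C_apply]
  by_cases hn : n = 0
  · subst hn
    rw [HahnSeries.coeff_single_same, HahnSeries.coeff_single_same]
  · rw [HahnSeries.coeff_single_of_ne hn, HahnSeries.coeff_single_of_ne hn, map_zero]

theorem incQ_comp_evJL : (incQ ℓ).comp (evJL ℓ) = evJ ℓ := by
  apply Polynomial.ringHom_ext
  · intro a
    simp only [RingHom.comp_apply, evJL, evJ, Polynomial.coe_eval₂RingHom, Polynomial.eval₂_C]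
    exact coeffMap_C _ a
  · simp only [RingHom.comp_apply, evJL, evJ, Polynomial.coe_eval₂RingHom, Polynomial.eval₂_X]
    exact Fermat.Agent.ModFun.coeffMap_jqModC _

theorem incQ_eval₂ (p : Polynomial (Polynomial (Lam ℓ))) :
    incQ ℓ (p.eval₂ (evJL ℓ) (vS (Lam ℓ) N)) = p.eval₂ (evJ ℓ) (vS ℚ N) := by
  rw [Polynomial.hom_eval₂, incQ_comp_evJL, incQ, coeffMap_vS]

/-- the reduction `Λ((q)) → 𝔽((q))` -/
def redF (ℓ : ℕ) : LaurentSeries (Lam ℓ) →+* LaurentSeries (Fl ℓ) :=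
  ModularCurve.coeffMap (Ideal.Quotient.mk (Ideal.span {(ℓ : Lam ℓ)}))

theorem redF_eq_zero_iff {f : LaurentSeries (Lam ℓ)} :
    redF ℓ f = 0 ↔ ∃ g, f = HahnSeries.C (ℓ : Lam ℓ) * g := by
  constructor
  · intro h
    have h1 : ∀ n, (ℓ : Lam ℓ) ∣ f.coeff n := by
      intro n
      have h2 := congrArg (fun F : LaurentSeries (Fl ℓ) => F.coeff n) h
      simp only [redF, ModularCurve.coeffMap_coeff, HahnSeries.coeff_zero] at h2
      exact Ideal.mem_span_singleton.mp (Ideal.Quotient.eq_zero_iff_mem.mp h2)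
    choose c hc using h1
    refine ⟨⟨c, ?_⟩, ?_⟩
    · refine f.isPWO_support.mono fun n hn => ?_
      rw [HahnSeries.mem_support]
      rw [Function.mem_support] at hn
      rw [hc n]
      exact mul_ne_zero l_ne_zero hn
    · ext n
      rw [HahnSeries.C_mul_eq_smul, HahnSeries.coeff_smul, hc n]
      rfl
  · rintro ⟨g, rfl⟩
    have h1 : Ideal.Quotient.mk (Ideal.span {(ℓ : Lam ℓ)}) (ℓ : Lam ℓ) = 0 :=
      Ideal.Quotient.eq_zero_iff_mem.mpr (Ideal.mem_span_singleton_self _)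
    rw [map_mul, redF, coeffMap_C, h1, map_zero, zero_mul]

theorem redF_comp_evJL : (redF ℓ).comp (evJL ℓ) =
    (Polynomial.eval₂RingHom (HahnSeries.C : Fl ℓ →+* LaurentSeries (Fl ℓ))
      (ModularCurve.jqModC (Fl ℓ))).comp
      (Polynomial.mapRingHom (Ideal.Quotient.mk (Ideal.span {(ℓ : Lam ℓ)}))) := by
  apply Polynomial.ringHom_ext
  · intro a
    simp only [RingHom.comp_apply, evJL, Polynomial.coe_eval₂RingHom, Polynomial.eval₂_C,
      Polynomial.coe_mapRingHom, Polynomial.map_C]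
    exact coeffMap_C _ a
  · simp only [RingHom.comp_apply, evJL, Polynomial.coe_eval₂RingHom, Polynomial.eval₂_X,
      Polynomial.coe_mapRingHom, Polynomial.map_X]
    exact Fermat.Agent.ModFun.coeffMap_jqModC _

theorem redF_eval₂ (p : Polynomial (Polynomial (Lam ℓ))) :
    redF ℓ (p.eval₂ (evJL ℓ) (vS (Lam ℓ) N)) =
      (p.map (Polynomial.mapRingHom (Ideal.Quotient.mk (Ideal.span {(ℓ : Lam ℓ)})))).eval₂
        (Polynomial.eval₂RingHom (HahnSeries.C : Fl ℓ →+* LaurentSeries (Fl ℓ))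
      (ModularCurve.jqModC (Fl ℓ))) (vS (Fl ℓ) N) := by
  rw [Polynomial.hom_eval₂, redF_comp_evJL, Polynomial.eval₂_map, redF, coeffMap_vS]

/-- If `p(j, V)` is divisible by `ℓ`, so is `p`. -/
theorem dvd_of_eval₂ (hN : ¬ ℓ ∣ N) {p : Polynomial (Polynomial (Lam ℓ))}
    (hp : p.natDegree < Fintype.card (XN N)) {g : LaurentSeries (Lam ℓ)}
    (h : p.eval₂ (evJL ℓ) (vS (Lam ℓ) N) = HahnSeries.C (ℓ : Lam ℓ) * g) :
    Polynomial.C (Polynomial.C (ℓ : Lam ℓ)) ∣ p := by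
  have h1 : redF ℓ (p.eval₂ (evJL ℓ) (vS (Lam ℓ) N)) = 0 := redF_eq_zero_iff.mpr ⟨g, h⟩
  rw [redF_eval₂] at h1
  have h2 := vS_indep_Fl hN _ (lt_of_le_of_lt Polynomial.natDegree_map_le hp) h1
  rw [Polynomial.C_dvd_iff_dvd_coeff]
  intro i
  rw [Polynomial.C_dvd_iff_dvd_coeff]
  intro k
  have h3 := congrArg (fun P : Polynomial (Polynomial (Fl ℓ)) => (P.coeff i).coeff k) h2
  simp only [Polynomial.coeff_map, Polynomial.coe_mapRingHom, Polynomial.coeff_zero] at h3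
  exact Ideal.mem_span_singleton.mp (Ideal.Quotient.eq_zero_iff_mem.mp h3)

theorem incQ_C (a : Lam ℓ) : incQ ℓ (HahnSeries.C a) = HahnSeries.C (a : ℚ) := coeffMap_C _ a

theorem exists_not_pow_dvd {D : Polynomial (Lam ℓ)} (hD : D ≠ 0) :
    ∃ k : ℕ, ¬ Polynomial.C (ℓ : Lam ℓ) ^ k ∣ D := by
  by_contra h
  push Not at h
  apply hD
  ext i
  rw [Polynomial.coeff_zero]
  congr 1
  apply eq_zero_of_forall_pow_dvd
  intro k
  have h1 := h k
  rw [← Polynomial.C_pow, Polynomial.C_dvd_iff_dvd_coeff] at h1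
  exact h1 i

/-- Representation with denominator prime to `ℓ`. -/
theorem exists_rep_prim (hN : ¬ ℓ ∣ N) {g : LaurentSeries (Lam ℓ)}
    (hg : incQ ℓ g ∈ ModularCurve.modularFunctionFieldFull N) :
    ∃ (D : Polynomial (Lam ℓ)) (p : Polynomial (Polynomial (Lam ℓ))),
      ¬ Polynomial.C (ℓ : Lam ℓ) ∣ D ∧ evJL ℓ D * g = p.eval₂ (evJL ℓ) (vS (Lam ℓ) N) := by
  have key : ∀ (k : ℕ) (D : Polynomial (Lam ℓ)) (p : Polynomial (Polynomial (Lam ℓ))),
      ¬ Polynomial.C (ℓ : Lam ℓ) ^ k ∣ D → p.natDegree < Fintype.card (XN N) →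
      evJL ℓ D * g = p.eval₂ (evJL ℓ) (vS (Lam ℓ) N) →
      ∃ (D : Polynomial (Lam ℓ)) (p : Polynomial (Polynomial (Lam ℓ))),
      ¬ Polynomial.C (ℓ : Lam ℓ) ∣ D ∧ evJL ℓ D * g = p.eval₂ (evJL ℓ) (vS (Lam ℓ) N) := by
    intro k
    induction k with
    | zero =>
      intro D p h1 _ _
      rw [pow_zero] at h1
      exact absurd (one_dvd D) h1
    | succ k ih =>
      intro D p h1 h2 h3
      by_cases hD : Polynomial.C (ℓ : Lam ℓ) ∣ D
      · obtain ⟨D', rfl⟩ := hD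
        have h4 : evJL ℓ (Polynomial.C (ℓ : Lam ℓ)) = HahnSeries.C (ℓ : Lam ℓ) := by
          rw [evJL, Polynomial.coe_eval₂RingHom, Polynomial.eval₂_C]
        rw [map_mul, h4, mul_assoc] at h3
        obtain ⟨p', rfl⟩ := dvd_of_eval₂ hN h2 h3.symm
        have hCl : (Polynomial.C (ℓ : Lam ℓ)) ≠ 0 := by
          rw [Ne, Polynomial.C_eq_zero]
          exact l_ne_zero
        have hCl' : (HahnSeries.C (ℓ : Lam ℓ) : LaurentSeries (Lam ℓ)) ≠ 0 := by
          rw [Ne, map_eq_zero_iff _ HahnSeries.C_injective]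
          exact l_ne_zero
        refine ih D' p' ?_ ?_ ?_
        · rintro ⟨c, hc⟩
          exact h1 ⟨c, by rw [hc]; ring⟩
        · rwa [Polynomial.natDegree_C_mul hCl] at h2
        · rw [Polynomial.eval₂_mul, Polynomial.eval₂_C, h4] at h3
          exact mul_left_cancel₀ hCl' h3
      · exact ⟨D, p, hD, h3⟩
  obtain ⟨D, p, hD, hp, h⟩ := exists_rep (ℓ := ℓ) hg
  obtain ⟨k, hk⟩ := exists_not_pow_dvd hD
  refine key k D p hk hp ?_
  apply incQ_injective
  rw [map_mul, incQ_eval₂, ← h, ← incQ_comp_evJL]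
  rfl

end Fermat.Agent.Igusa
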