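import Mathlib
import Fermat.Agent.Igusa.Rep
import Fermat.Agent.Igusa.Normal
import Fermat.Prelude.Def_ModularCurve_IgusaScheme

/-!
The charts of the Igusa scheme and their reduction modulo `ℓ`.
-/

set_option autoImplicit false

noncomputable section

namespace Fermat.Agent.Igusa

open Fermat.Agent.ModFun
open Function ModularCurve ModularCurve.IgusaScheme
open scoped ModularCurve.IgusaScheme

variable {ℓ : ℕ} [hℓ : Fact ℓ.Prime] {N : ℕ} [NeZero N]

theorem leadU_jqModC (R : Type*) [CommRing R] : LeadU (jqModC R) (-1) := by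
  refine ⟨fun k hk => ?_, ?_⟩
  · have := coeff_jqModC_pow_of_lt' (R := R) (b := 1) (m := k) (by push_cast; omega)
    rwa [pow_one] at this
  · have := coeff_jqModC_pow_self' (R := R) 1
    rw [pow_one, Nat.cast_one] at this
    rw [this]
    exact isUnit_one

theorem LeadU_isUnit {R : Type*} [CommRing R] {F : LaurentSeries R} {m : ℤ} (h : LeadU F m) :
    IsUnit F := by
  obtain ⟨P, hP, rfl⟩ := leadU_iff.mp h
  refine IsUnit.mul ?_ (hP.map _)
  refine IsUnit.of_mul_eq_one (HahnSeries.single (-m) 1) ?_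
  rw [HahnSeries.single_mul_single]
  simp

theorem jq_inv_mem_LL : (jq)⁻¹ ∈ LL ℓ := by
  obtain ⟨g, hg⟩ := isUnit_iff_exists_inv.mp (LeadU_isUnit (leadU_jqModC (Lam ℓ)))
  refine ⟨g, ?_⟩
  have h1 := congrArg (incQ ℓ) hg
  rw [map_mul, map_one] at h1
  have h2 : incQ ℓ (jqModC (Lam ℓ)) = jq := Fermat.Agent.ModFun.coeffMap_jqModC _
  rw [h2] at h1
  exact eq_inv_of_mul_eq_one_right h1

theorem evJL_injective : Injective (evJL ℓ) := eval₂_jq_injective

theorem evJ_injective : Injective (evJ ℓ) := by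
  rw [← incQ_comp_evJL]
  exact incQ_injective.comp evJL_injective

theorem evJ_mem_LL (P : Polynomial (Lam ℓ)) : evJ ℓ P ∈ LL ℓ := by
  rw [← incQ_comp_evJL]
  exact ⟨_, rfl⟩

theorem coe_algebraMap_lam (a : Lam ℓ) :
    ((algebraMap (Lam ℓ) (modularFunctionFieldFull N) a : modularFunctionFieldFull N) :
      LaurentSeries ℚ) = HahnSeries.C (a : ℚ) := by
  have h := RingHom.ext_rat
    ((algebraMap (modularFunctionFieldFull N) (LaurentSeries ℚ)).comp
      (algebraMap ℚ (modularFunctionFieldFull N))) HahnSeries.C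
  exact congrArg (fun f : ℚ →+* LaurentSeries ℚ => f (a : ℚ)) h

/-- the inclusion of the function field -/
def valF (N : ℕ) [NeZero N] : modularFunctionFieldFull N →+* LaurentSeries ℚ :=
  algebraMap (modularFunctionFieldFull N) (LaurentSeries ℚ)

/-- Elements of the charts have integral expansions. -/
theorem coe_mem_LL {S : Set (modularFunctionFieldFull N)}
    (hS : ∀ s ∈ S, (s : LaurentSeries ℚ) ∈ LL ℓ) {x : modularFunctionFieldFull N}
    (hx : x ∈ chartAlg N ℓ S) : (x : LaurentSeries ℚ) ∈ LL ℓ := by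
  obtain ⟨D, p, hD, -, hp⟩ := exists_rep (ℓ := ℓ) x.2
  have hadj : ∀ y ∈ Algebra.adjoin (Lam ℓ) S, (y : LaurentSeries ℚ) ∈ LL ℓ := by
    intro y hy
    induction hy using Algebra.adjoin_induction with
    | mem y hy => exact hS y hy
    | algebraMap a =>
      rw [coe_algebraMap_lam]
      exact C_mem_LL a
    | add y z _ _ hy hz =>
      have h1 : ((y + z : modularFunctionFieldFull N) : LaurentSeries ℚ) = y + z := rfl
      rw [h1]
      exact add_mem hy hz
    | mul y z _ _ hy hz =>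
      have h1 : ((y * z : modularFunctionFieldFull N) : LaurentSeries ℚ) = y * z := rfl
      rw [h1]
      exact mul_mem hy hz
  let ψ : Algebra.adjoin (Lam ℓ) S →+* LL ℓ :=
    ((valF N).comp
      (Algebra.adjoin (Lam ℓ) S).val.toRingHom).codRestrict (LL ℓ) fun y => hadj y y.2
  have hint : IsIntegral (LL ℓ) (x : LaurentSeries ℚ) :=
    IsIntegral.map_of_comp_eq ψ (valF N) (by ext1; rfl)
      ((mem_chartAlg_iff N ℓ).mp hx)
  apply mem_LL_of_almost
  refine hint.isAlmostIntegral_of_exists_smul_mem_range ⟨⟨evJ ℓ D, evJ_mem_LL D⟩, ?_, ?_⟩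
  · apply mem_nonZeroDivisors_of_ne_zero
    intro h
    have h1 := congrArg Subtype.val h
    exact hD (evJ_injective (by rw [map_zero]; exact h1))
  · refine ⟨⟨p.eval₂ (evJ ℓ) (vS ℚ N), ?_⟩, ?_⟩
    · rw [← incQ_eval₂]
      exact ⟨_, rfl⟩
    · exact hp.symm

theorem exists_expansion {S : Set (modularFunctionFieldFull N)}
    (hS : ∀ s ∈ S, (s : LaurentSeries ℚ) ∈ LL ℓ) (x : chartAlg N ℓ S) :
    ∃ g : LaurentSeries (Lam ℓ), incQ ℓ g = ((x : modularFunctionFieldFull N) : LaurentSeries ℚ) :=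
  coe_mem_LL hS x.2

/-- The expansion homomorphism of a chart. -/
def expB {S : Set (modularFunctionFieldFull N)}
    (hS : ∀ s ∈ S, (s : LaurentSeries ℚ) ∈ LL ℓ) : chartAlg N ℓ S →+* LaurentSeries (Lam ℓ) where
  toFun x := (exists_expansion hS x).choose
  map_one' := incQ_injective (by rw [(exists_expansion hS 1).choose_spec, map_one]; rfl)
  map_zero' := incQ_injective (by rw [(exists_expansion hS 0).choose_spec, map_zero]; rfl)
  map_add' x y := incQ_injective (by
    rw [(exists_expansion hS (x + y)).choose_spec, map_add, (exists_expansion hS x).choose_spec,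
      (exists_expansion hS y).choose_spec]
    rfl)
  map_mul' x y := incQ_injective (by
    rw [(exists_expansion hS (x * y)).choose_spec, map_mul, (exists_expansion hS x).choose_spec,
      (exists_expansion hS y).choose_spec]
    rfl)

theorem incQ_expB {S : Set (modularFunctionFieldFull N)}
    (hS : ∀ s ∈ S, (s : LaurentSeries ℚ) ∈ LL ℓ) (x : chartAlg N ℓ S) :
    incQ ℓ (expB hS x) = ((x : modularFunctionFieldFull N) : LaurentSeries ℚ) :=
  (exists_expansion hS x).choose_spec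

theorem expB_algebraMap {S : Set (modularFunctionFieldFull N)}
    (hS : ∀ s ∈ S, (s : LaurentSeries ℚ) ∈ LL ℓ) (a : Lam ℓ) :
    expB hS (algebraMap (Lam ℓ) (chartAlg N ℓ S) a) = HahnSeries.C a := by
  apply incQ_injective
  rw [incQ_expB, incQ_C]
  exact coe_algebraMap_lam a

/-- `Λ[X] → F` evaluation at `j` -/
theorem coe_aeval_jFull (P : Polynomial (Lam ℓ)) :
    ((Polynomial.aeval (jFull N) P : modularFunctionFieldFull N) : LaurentSeries ℚ) =
      evJ ℓ P := by
  have h1 : (valF N).comp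
      (Polynomial.aeval (R := Lam ℓ) (jFull N)).toRingHom = evJ ℓ := by
    apply Polynomial.ringHom_ext
    · intro a
      simp only [RingHom.comp_apply, evJ, Polynomial.coe_eval₂RingHom, Polynomial.eval₂_C]
      show ((Polynomial.aeval (jFull N) (Polynomial.C a) : modularFunctionFieldFull N) :
        LaurentSeries ℚ) = _
      rw [Polynomial.aeval_C]
      exact coe_algebraMap_lam a
    · simp only [RingHom.comp_apply, evJ, Polynomial.coe_eval₂RingHom, Polynomial.eval₂_X]
      show ((Polynomial.aeval (jFull N) (Polynomial.X : Polynomial (Lam ℓ)) :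
        modularFunctionFieldFull N) : LaurentSeries ℚ) = _
      rw [Polynomial.aeval_X]
      rfl
  exact congrArg (fun f : Polynomial (Lam ℓ) →+* LaurentSeries ℚ => f P) h1

theorem aeval_jFull_injective :
    Injective (Polynomial.aeval (R := Lam ℓ) (jFull N)) := by
  intro P Q h
  apply evJ_injective
  rw [← coe_aeval_jFull (N := N), ← coe_aeval_jFull (N := N), h]

/-- The criterion for membership in a chart. -/
theorem mem_chartAlg_of_mul {t : modularFunctionFieldFull N}
    (ht : Injective (Polynomial.aeval (R := Lam ℓ) t)) {b : modularFunctionFieldFull N}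
    (h1 : algebraMap (Lam ℓ) _ (ℓ : Lam ℓ) * b ∈ chartAlg N ℓ {t}) {E : Polynomial (Lam ℓ)}
    (hE : ¬ Polynomial.C (ℓ : Lam ℓ) ∣ E)
    (h2 : Polynomial.aeval t E * b ∈ chartAlg N ℓ {t}) : b ∈ chartAlg N ℓ {t} := by
  rw [mem_chartAlg_iff] at h1 h2 ⊢
  exact isIntegral_adjoin_of_mul ht prime_l hE h1 h2

/-- `V` as an element of the function field. -/
def vF (N : ℕ) [NeZero N] : modularFunctionFieldFull N := ⟨vS ℚ N, vS_mem (algebraMap ℚ ℂ)⟩

theorem vF_mem (hN : ¬ ℓ ∣ N) : vF N ∈ chartAlg N ℓ {jFull N} := by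
  obtain ⟨P, hP, h0⟩ := exists_integral (ℓ := ℓ) hN
  rw [mem_chartAlg_iff]
  let u : Polynomial (Lam ℓ) →+* Algebra.adjoin (Lam ℓ) {jFull N} :=
    (polyEquivAdjoin (jFull N) (aeval_jFull_injective (ℓ := ℓ) (N := N)) :
      Polynomial (Lam ℓ) →+* Algebra.adjoin (Lam ℓ) {jFull N})
  refine ⟨P.map u, hP.map u, ?_⟩
  rw [Polynomial.eval₂_map]
  apply Subtype.ext
  have h1 := Polynomial.hom_eval₂ P ((algebraMap (Algebra.adjoin (Lam ℓ) {jFull N})
    (modularFunctionFieldFull N)).comp u) (valF N) (vF N)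
  refine h1.trans ?_
  have h2 : (valF N).comp
      ((algebraMap (Algebra.adjoin (Lam ℓ) {jFull N}) (modularFunctionFieldFull N)).comp u) =
      evJ ℓ := by
    refine RingHom.ext fun Q => ?_
    exact coe_aeval_jFull Q
  rw [h2]
  exact h0

theorem aeval_mem_chartAlg (t : modularFunctionFieldFull N) (P : Polynomial (Lam ℓ)) :
    Polynomial.aeval t P ∈ chartAlg N ℓ {t} := by
  apply adjoin_le_chartAlg
  rw [Algebra.adjoin_singleton_eq_range_aeval]
  exact ⟨P, rfl⟩

theorem eval₂_mem_chartAlg (hN : ¬ ℓ ∣ N) (p : Polynomial (Polynomial (Lam ℓ))) :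
    p.eval₂ (Polynomial.aeval (R := Lam ℓ) (jFull N)).toRingHom (vF N) ∈
      chartAlg N ℓ {jFull N} := by
  rw [Polynomial.eval₂_eq_sum_range]
  refine sum_mem fun i _ => mul_mem ?_ (pow_mem (vF_mem hN) i)
  exact aeval_mem_chartAlg _ _

theorem coe_eval₂ (p : Polynomial (Polynomial (Lam ℓ))) :
    ((p.eval₂ (Polynomial.aeval (R := Lam ℓ) (jFull N)).toRingHom (vF N) :
      modularFunctionFieldFull N) : LaurentSeries ℚ) = p.eval₂ (evJ ℓ) (vS ℚ N) := by
  have h1 := Polynomial.hom_eval₂ p (Polynomial.aeval (R := Lam ℓ) (jFull N)).toRingHom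
    (valF N) (vF N)
  refine h1.trans ?_
  have h2 : (valF N).comp
      (Polynomial.aeval (R := Lam ℓ) (jFull N)).toRingHom = evJ ℓ :=
    RingHom.ext fun Q => coe_aeval_jFull Q
  rw [h2]
  rfl

theorem not_C_dvd_reverse {D : Polynomial (Lam ℓ)} (hD : ¬ Polynomial.C (ℓ : Lam ℓ) ∣ D)
    (n : ℕ) : ¬ Polynomial.C (ℓ : Lam ℓ) ∣ Polynomial.X ^ n * D.reverse := by
  intro h
  apply hD
  rw [Polynomial.C_dvd_iff_dvd_coeff] at h ⊢
  intro i
  by_cases hi : i ≤ D.natDegree
  · have h1 := h (D.natDegree - i + n)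
    rw [Polynomial.coeff_X_pow_mul, Polynomial.coeff_reverse,
      Polynomial.revAt_le (Nat.sub_le _ _), Nat.sub_sub_self hi] at h1
    exact h1
  · rw [Polynomial.coeff_eq_zero_of_natDegree_lt (not_le.mp hi)]
    exact dvd_zero _

/-- The key property: an element of a chart with expansion divisible by `ℓ` is divisible by `ℓ`. -/
theorem exists_of_redF_eq_zero (hN : ¬ ℓ ∣ N) {t : modularFunctionFieldFull N}
    (ht : t = jFull N ∨ t * jFull N = 1) (hS : ∀ s ∈ ({t} : Set (modularFunctionFieldFull N)),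
      (s : LaurentSeries ℚ) ∈ LL ℓ) {b : chartAlg N ℓ {t}} (hb : redF ℓ (expB hS b) = 0) :
    ∃ b' : chartAlg N ℓ {t}, b = algebraMap (Lam ℓ) (chartAlg N ℓ {t}) (ℓ : Lam ℓ) * b' := by
  obtain ⟨g, hg⟩ := redF_eq_zero_iff.mp hb
  have hl0 : algebraMap (Lam ℓ) (modularFunctionFieldFull N) (ℓ : Lam ℓ) ≠ 0 := by
    intro h
    have h1 := coe_algebraMap_lam (ℓ := ℓ) (N := N) (ℓ : Lam ℓ)
    rw [h] at h1
    have h2 : (HahnSeries.C (((ℓ : Lam ℓ)) : ℚ) : LaurentSeries ℚ) = 0 := h1.symm
    rw [map_eq_zero_iff _ HahnSeries.C_injective] at h2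
    exact l_ne_zero (Subtype.ext h2)
  set b' : modularFunctionFieldFull N :=
    (algebraMap (Lam ℓ) (modularFunctionFieldFull N) (ℓ : Lam ℓ))⁻¹ * b with hb'
  have hbb : algebraMap (Lam ℓ) (modularFunctionFieldFull N) (ℓ : Lam ℓ) * b' = b := by
    rw [hb', ← mul_assoc, mul_inv_cancel₀ hl0, one_mul]
  have hgb : incQ ℓ g = (b' : LaurentSeries ℚ) := by
    have h1 := incQ_expB hS b
    rw [hg, map_mul, incQ_C, ← hbb] at h1
    have h2 : ((algebraMap (Lam ℓ) (modularFunctionFieldFull N) (ℓ : Lam ℓ) * b' :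
        modularFunctionFieldFull N) : LaurentSeries ℚ) =
        HahnSeries.C (((ℓ : Lam ℓ)) : ℚ) * (b' : LaurentSeries ℚ) := by
      rw [← coe_algebraMap_lam (N := N)]
      rfl
    rw [h2] at h1
    have h3 : (HahnSeries.C (((ℓ : Lam ℓ)) : ℚ) : LaurentSeries ℚ) ≠ 0 := by
      rw [Ne, map_eq_zero_iff _ HahnSeries.C_injective]
      exact fun h => l_ne_zero (Subtype.ext h)
    exact mul_left_cancel₀ h3 h1
  obtain ⟨D, p, hD, hp⟩ := exists_rep_prim hN (g := g) (by rw [hgb]; exact b'.2)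
  have hDb : Polynomial.aeval (jFull N) D * b' =
      p.eval₂ (Polynomial.aeval (R := Lam ℓ) (jFull N)).toRingHom (vF N) := by
    apply Subtype.ext
    rw [coe_eval₂, ← incQ_eval₂, ← hp, map_mul, hgb, ← RingHom.comp_apply, incQ_comp_evJL]
    show ((Polynomial.aeval (jFull N) D : modularFunctionFieldFull N) : LaurentSeries ℚ) * _ = _
    rw [coe_aeval_jFull]
  have hmem : Polynomial.aeval (jFull N) D * b' ∈ chartAlg N ℓ {jFull N} := by
    rw [hDb]
    exact eval₂_mem_chartAlg hN p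
  have hfin : b' ∈ chartAlg N ℓ {t} := by
    rcases ht with rfl | ht
    · refine mem_chartAlg_of_mul aeval_jFull_injective ?_ hD hmem
      rw [hbb]
      exact b.2
    · have ht0 : t ≠ 0 := left_ne_zero_of_mul_eq_one ht
      have htj : jFull N = t⁻¹ := eq_inv_of_mul_eq_one_right ht
      have h1 : Polynomial.aeval (jFull N) D * b' ∈ chartAlg N ℓ (insert t⁻¹ {t}) := by
        refine chartAlg_mono N ℓ ?_ hmem
        rw [← htj]
        exact Set.singleton_subset_iff.mpr (Set.mem_insert _ _)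
      obtain ⟨n, hn⟩ := exists_pow_mul_mem_chartAlg (Set.mem_singleton _) ht0 h1
      refine mem_chartAlg_of_mul (E := Polynomial.X ^ n * D.reverse)
        (aeval_inv_injective ht aeval_jFull_injective) ?_ (not_C_dvd_reverse hD n) ?_
      · rw [hbb]
        exact b.2
      · have h5 : t ∈ chartAlg N ℓ {t} := subset_chartAlg N ℓ _ (Set.mem_singleton t)
        have h6 : t ^ D.natDegree ∈ chartAlg N ℓ {t} := pow_mem h5 _
        have h7 : t ^ D.natDegree * (t ^ n * (Polynomial.aeval (jFull N) D * b')) ∈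
          chartAlg N ℓ {t} := mul_mem h6 hn
        have h8 := aeval_inv_rev_mul ht D n b'
        rw [h8]
        exact h7
  refine ⟨⟨b', hfin⟩, ?_⟩
  apply Subtype.ext
  exact hbb.symm

theorem hS_fin : ∀ s ∈ ({jFull N} : Set (modularFunctionFieldFull N)),
    (s : LaurentSeries ℚ) ∈ LL ℓ := by
  rintro s rfl
  exact jq_mem_LL

theorem coe_jFull_inv : (((jFull N)⁻¹ : modularFunctionFieldFull N) : LaurentSeries ℚ) =
    jq⁻¹ := rfl

theorem hS_inf : ∀ s ∈ ({(jFull N)⁻¹} : Set (modularFunctionFieldFull N)),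
    (s : LaurentSeries ℚ) ∈ LL ℓ := by
  rintro s rfl
  rw [coe_jFull_inv]
  exact jq_inv_mem_LL

theorem hS_mid : ∀ s ∈ ({jFull N, (jFull N)⁻¹} : Set (modularFunctionFieldFull N)),
    (s : LaurentSeries ℚ) ∈ LL ℓ := by
  rintro s (rfl | rfl)
  · exact jq_mem_LL
  · rw [coe_jFull_inv]
    exact jq_inv_mem_LL

end Fermat.Agent.Igusa
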