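import Mathlib
import Fermat.Agent.Igusa.Rep

/-!
Base change of an algebra with a `q`-expansion homomorphism to a field of characteristic `ℓ`.
-/

set_option autoImplicit false

noncomputable section

namespace Fermat.Agent.Igusa

open Fermat.Agent.ModFun
open Function TensorProduct

variable {ℓ : ℕ} [hℓ : Fact ℓ.Prime]

section

variable {K : Type*} [Field K] [CharP K ℓ] [Algebra (Lam ℓ) K]
  {B : Type*} [CommRing B] [Algebra (Lam ℓ) B]

/-- the residue field maps to `K` -/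
def flToK (ℓ : ℕ) [Fact ℓ.Prime] (K : Type*) [Field K] [CharP K ℓ] [Algebra (Lam ℓ) K] :
    Fl ℓ →+* K :=
  Ideal.Quotient.lift _ (algebraMap (Lam ℓ) K) (by
    intro a ha
    obtain ⟨b, rfl⟩ := Ideal.mem_span_singleton.mp ha
    rw [map_mul, map_natCast, CharP.cast_eq_zero, zero_mul])

theorem flToK_mk (a : Lam ℓ) :
    flToK ℓ K (Ideal.Quotient.mk (Ideal.span {(ℓ : Lam ℓ)}) a) = algebraMap (Lam ℓ) K a := rfl

/-- The expansion homomorphism after base change. -/
def expK (E : B →+* LaurentSeries (Lam ℓ)) : B →+* LaurentSeries K :=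
  (ModularCurve.coeffMap (algebraMap (Lam ℓ) K)).comp E

theorem exists_ringHom (E : B →+* LaurentSeries (Lam ℓ))
    (hE : ∀ a, E (algebraMap (Lam ℓ) B a) = HahnSeries.C a) :
    ∃ Θ : B ⊗[Lam ℓ] K →+* LaurentSeries K, ∀ b k,
      Θ (b ⊗ₜ k) = ModularCurve.coeffMap (algebraMap (Lam ℓ) K) (E b) * HahnSeries.C k := by
  letI : Algebra (Lam ℓ) (LaurentSeries K) :=
    ((HahnSeries.C : K →+* LaurentSeries K).comp (algebraMap (Lam ℓ) K)).toAlgebra
  let f : B →ₐ[Lam ℓ] LaurentSeries K :=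
    { toRingHom := expK E
      commutes' := fun a => by
        show ModularCurve.coeffMap (algebraMap (Lam ℓ) K) (E (algebraMap (Lam ℓ) B a)) = _
        rw [hE, coeffMap_C]
        rfl }
  let g : K →ₐ[Lam ℓ] LaurentSeries K :=
    { toRingHom := HahnSeries.C
      commutes' := fun a => rfl }
  refine ⟨(Algebra.TensorProduct.productMap f g).toRingHom, fun b k => ?_⟩
  exact Algebra.TensorProduct.productMap_apply_tmul f g b k

theorem injective_of_expansion (E : B →+* LaurentSeries (Lam ℓ))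
    (hdiv : ∀ b, redF ℓ (E b) = 0 → ∃ b', b = algebraMap (Lam ℓ) B (ℓ : Lam ℓ) * b')
    (Θ : B ⊗[Lam ℓ] K →+* LaurentSeries K) (hΘ : ∀ b k,
      Θ (b ⊗ₜ k) = ModularCurve.coeffMap (algebraMap (Lam ℓ) K) (E b) * HahnSeries.C k) :
    Injective Θ := by
  classical
  letI : Algebra (Fl ℓ) K := (flToK ℓ K).toAlgebra
  have hsm : ∀ (a : Lam ℓ) (k : K),
      (Ideal.Quotient.mk (Ideal.span {(ℓ : Lam ℓ)}) a : Fl ℓ) • k = a • k := by
    intro a k
    rw [Algebra.smul_def, Algebra.smul_def]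
    rfl
  let e := Module.Basis.ofVectorSpace (Fl ℓ) K
  -- lifts
  have hlift : ∀ x : Fl ℓ, ∃ a : Lam ℓ, Ideal.Quotient.mk (Ideal.span {(ℓ : Lam ℓ)}) a = x ∧
      (x = 0 → a = 0) := by
    intro x
    by_cases hx : x = 0
    · exact ⟨0, by rw [hx, map_zero], fun _ => rfl⟩
    · obtain ⟨a, ha⟩ := Ideal.Quotient.mk_surjective x
      exact ⟨a, ha, fun h => absurd h hx⟩
  choose g hg1 hg2 using hlift
  have hrep : ∀ z : B ⊗[Lam ℓ] K, ∃ f : (Module.Basis.ofVectorSpaceIndex (Fl ℓ) K) →₀ B,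
      z = f.sum fun i b => b ⊗ₜ[Lam ℓ] e i := by
    intro z
    induction z using TensorProduct.induction_on with
    | zero => exact ⟨0, by rw [Finsupp.sum_zero_index]⟩
    | tmul b a =>
      refine ⟨(e.repr a).mapRange (fun x => g x • b) (by rw [hg2 0 rfl, zero_smul]), ?_⟩
      rw [Finsupp.sum_mapRange_index (h := fun i b => b ⊗ₜ[Lam ℓ] e i)
        (fun i => TensorProduct.zero_tmul _ _)]
      have h1 : a = (e.repr a).sum fun i x => x • e i := by
        conv_lhs => rw [← e.linearCombination_repr a, Finsupp.linearCombination_apply]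
      conv_lhs => rw [h1]
      rw [Finsupp.sum, TensorProduct.tmul_sum, Finsupp.sum]
      refine Finset.sum_congr rfl fun i _ => ?_
      rw [TensorProduct.smul_tmul, ← hsm, hg1]
    | add z w hz hw =>
      obtain ⟨f₁, h₁⟩ := hz
      obtain ⟨f₂, h₂⟩ := hw
      refine ⟨f₁ + f₂, ?_⟩
      rw [Finsupp.sum_add_index' (h := fun i b => b ⊗ₜ[Lam ℓ] e i)
        (fun i => TensorProduct.zero_tmul _ _)
        (fun i b₁ b₂ => TensorProduct.add_tmul _ _ _), ← h₁, ← h₂]
  rw [injective_iff_map_eq_zero]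
  intro z hz
  obtain ⟨f, rfl⟩ := hrep z
  rw [Finsupp.sum, map_sum] at hz
  simp only [hΘ] at hz
  have h1 : ∀ i ∈ f.support, redF ℓ (E (f i)) = 0 := by
    intro i hi
    ext n
    have h2 := congrArg (fun F : LaurentSeries K => F.coeff n) hz
    simp only [HahnSeries.coeff_sum, HahnSeries.coeff_zero] at h2
    have h3 : ∀ j, (ModularCurve.coeffMap (algebraMap (Lam ℓ) K) (E (f j)) *
        HahnSeries.C (e j)).coeff n =
        (Ideal.Quotient.mk (Ideal.span {(ℓ : Lam ℓ)}) ((E (f j)).coeff n) : Fl ℓ) • e j := by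
      intro j
      rw [mul_comm, HahnSeries.C_mul_eq_smul, HahnSeries.coeff_smul, smul_eq_mul,
        ModularCurve.coeffMap_coeff, hsm, Algebra.smul_def, mul_comm]
    simp only [h3] at h2
    have h4 := linearIndependent_iff'.mp e.linearIndependent f.support
      (fun j => (Ideal.Quotient.mk (Ideal.span {(ℓ : Lam ℓ)}) ((E (f j)).coeff n) : Fl ℓ)) h2 i hi
    rw [redF, ModularCurve.coeffMap_coeff, h4, HahnSeries.coeff_zero]
  rw [Finsupp.sum]
  refine Finset.sum_eq_zero fun i hi => ?_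
  obtain ⟨b', hb'⟩ := hdiv _ (h1 i hi)
  rw [hb', ← Algebra.smul_def, TensorProduct.smul_tmul, Algebra.smul_def, map_natCast,
    CharP.cast_eq_zero, zero_mul, TensorProduct.tmul_zero]

theorem isDomain_of_expansion (E : B →+* LaurentSeries (Lam ℓ))
    (hE : ∀ a, E (algebraMap (Lam ℓ) B a) = HahnSeries.C a)
    (hdiv : ∀ b, redF ℓ (E b) = 0 → ∃ b', b = algebraMap (Lam ℓ) B (ℓ : Lam ℓ) * b') :
    IsDomain (B ⊗[Lam ℓ] K) := by
  obtain ⟨Θ, hΘ⟩ := exists_ringHom (K := K) E hE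
  exact (injective_of_expansion E hdiv Θ hΘ).isDomain Θ

theorem nontrivial_of_expansion (E : B →+* LaurentSeries (Lam ℓ))
    (hE : ∀ a, E (algebraMap (Lam ℓ) B a) = HahnSeries.C a) :
    Nontrivial (B ⊗[Lam ℓ] K) := by
  obtain ⟨Θ, hΘ⟩ := exists_ringHom (K := K) E hE
  exact Θ.domain_nontrivial

end

end Fermat.Agent.Igusa
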