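import Mathlib
import Fermat.Agent.Igusa.Reduction
import Fermat.Agent.Igusa.Tensor

/-!
Integrality of the base change of the Igusa scheme.
-/

set_option autoImplicit false

noncomputable section

namespace Fermat.Agent.Igusa

open Fermat.Agent.ModFun
open Function ModularCurve ModularCurve.IgusaScheme
open scoped ModularCurve.IgusaScheme TensorProduct
open AlgebraicGeometry CategoryTheory CategoryTheory.Limits

section Top

theorem isPreirreducible_univ_of_union {X : Type*} [TopologicalSpace X] {U V : Set X}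
    (hU : IsOpen U) (hV : IsOpen V) (hU' : IsPreirreducible U) (hV' : IsPreirreducible V)
    (hne : (U ∩ V).Nonempty) (hcov : U ∪ V = Set.univ) : IsPreirreducible (Set.univ : Set X) := by
  have key : ∀ O : Set X, IsOpen O → O.Nonempty → (U ∩ O).Nonempty := by
    intro O hO ⟨x, hx⟩
    have hx' : x ∈ U ∪ V := by rw [hcov]; trivial
    rcases hx' with h | h
    · exact ⟨x, h, hx⟩
    · obtain ⟨y, hy⟩ := hV' O U hO hU ⟨x, h, hx⟩ (by rwa [Set.inter_comm] at hne)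
      exact ⟨y, hy.2.2, hy.2.1⟩
  intro O₁ O₂ hO₁ hO₂ h₁ h₂
  rw [Set.univ_inter] at h₁ h₂ ⊢
  obtain ⟨y, hy⟩ := hU' O₁ O₂ hO₁ hO₂ (key O₁ hO₁ h₁) (key O₂ hO₂ h₂)
  exact ⟨y, hy.2⟩

end Top

variable {ℓ : ℕ} [hℓ : Fact ℓ.Prime] {N : ℕ} [NeZero N]

section Mid

theorem exists_of_redF_eq_zero_mid (hN : ¬ ℓ ∣ N) {b : chartAlgMid N ℓ}
    (hb : redF ℓ (expB hS_mid b) = 0) :
    ∃ b' : chartAlgMid N ℓ, b = algebraMap (Lam ℓ) (chartAlgMid N ℓ) (ℓ : Lam ℓ) * b' := by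
  have hbm : (b : modularFunctionFieldFull N) ∈ chartAlg N ℓ (insert (jFull N)⁻¹ {jFull N}) := by
    rw [show insert (jFull N)⁻¹ ({jFull N} : Set (modularFunctionFieldFull N)) =
      {jFull N, (jFull N)⁻¹} from Set.pair_comm _ _]
    exact b.2
  obtain ⟨n, hn⟩ := exists_pow_mul_mem_chartAlg (Set.mem_singleton _) (jFull_ne_zero N) hbm
  let c : chartAlgFin N ℓ := ⟨jFull N ^ n * b, hn⟩
  have hc : redF ℓ (expB hS_fin c) = 0 := by
    have h1 : expB hS_fin c = (jqModC (Lam ℓ)) ^ n * expB hS_mid b := by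
      apply incQ_injective
      rw [incQ_expB, map_mul, map_pow, incQ_expB]
      have h2 : incQ ℓ (jqModC (Lam ℓ)) = jq := Fermat.Agent.ModFun.coeffMap_jqModC _
      rw [h2]
      rfl
    rw [h1, map_mul, hb, mul_zero]
  obtain ⟨c', hc'⟩ := exists_of_redF_eq_zero hN (Or.inl rfl) hS_fin hc
  have hj : jFull N ∈ chartAlgMid N ℓ := subset_chartAlg N ℓ _ (Set.mem_insert _ _)
  have hji : (jFull N)⁻¹ ∈ chartAlgMid N ℓ :=
    subset_chartAlg N ℓ _ (Set.mem_insert_of_mem _ (Set.mem_singleton _))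
  have hj1 : (⟨_, hji⟩ : chartAlgMid N ℓ) * ⟨_, hj⟩ = 1 := by
    apply Subtype.ext
    exact inv_mul_cancel₀ (jFull_ne_zero N)
  have h3 : (⟨_, hj⟩ : chartAlgMid N ℓ) ^ n * b =
      algebraMap (Lam ℓ) (chartAlgMid N ℓ) (ℓ : Lam ℓ) * inclFin N ℓ c' := by
    have h4 := congrArg (inclFin N ℓ) hc'
    rw [map_mul, AlgHom.commutes] at h4
    rw [← h4]
    apply Subtype.ext
    rfl
  refine ⟨(⟨_, hji⟩ : chartAlgMid N ℓ) ^ n * inclFin N ℓ c', ?_⟩
  calc b = ((⟨_, hji⟩ : chartAlgMid N ℓ) * ⟨_, hj⟩) ^ n * b := by rw [hj1, one_pow, one_mul]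
    _ = (⟨_, hji⟩ : chartAlgMid N ℓ) ^ n * ((⟨_, hj⟩ : chartAlgMid N ℓ) ^ n * b) := by
      rw [mul_pow, mul_assoc]
    _ = _ := by
      rw [h3]
      ring

end Mid

variable {K : Type} [Field K] [CharP K ℓ] [Algebra (Lam ℓ) K]

theorem isDomain_fin (hN : ¬ ℓ ∣ N) : IsDomain (chartAlgFin N ℓ ⊗[Lam ℓ] K) :=
  isDomain_of_expansion (expB hS_fin) (expB_algebraMap hS_fin)
    (fun _ hb => exists_of_redF_eq_zero hN (Or.inl rfl) hS_fin hb)

theorem isDomain_inf (hN : ¬ ℓ ∣ N) : IsDomain (chartAlgInf N ℓ ⊗[Lam ℓ] K) :=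
  isDomain_of_expansion (expB hS_inf) (expB_algebraMap hS_inf)
    (fun _ hb => exists_of_redF_eq_zero hN
      (Or.inr (inv_mul_cancel₀ (jFull_ne_zero N))) hS_inf hb)

theorem isDomain_mid (hN : ¬ ℓ ∣ N) : IsDomain (chartAlgMid N ℓ ⊗[Lam ℓ] K) :=
  isDomain_of_expansion (expB hS_mid) (expB_algebraMap hS_mid)
    (fun _ hb => exists_of_redF_eq_zero_mid hN hb)

theorem isIntegral_piece {R B : Type} [CommRing R] [CommRing B] [Algebra R B] [Algebra R K]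
    (h : IsDomain (B ⊗[R] K)) {φ : Spec (CommRingCat.of B) ⟶ Spec (CommRingCat.of R)}
    (hφ : φ = Spec.map (CommRingCat.ofHom (algebraMap R B))) :
    IsIntegral ↑(pullback φ (Spec.map (CommRingCat.ofHom (algebraMap R K)))) := by
  subst hφ
  haveI : IsDomain (CommRingCat.of (B ⊗[R] K)) := h
  exact IsIntegral.of_isIso (pullbackSpecIso R B K).inv

section Glue

variable {X S T : Scheme.{0}}

theorem map_comp_map (π : X ⟶ S) (g : T ⟶ S) {A C : Scheme.{0}} {a : A ⟶ X} {c : C ⟶ X}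
    {f : C ⟶ A} (h : f ≫ a = c) :
    pullback.map (c ≫ π) g (a ≫ π) g f (𝟙 T) (𝟙 S)
      (by rw [Category.comp_id, ← Category.assoc, h]) (by simp) ≫
    pullback.map (a ≫ π) g π g a (𝟙 T) (𝟙 S) (by simp) (by simp) =
    pullback.map (c ≫ π) g π g c (𝟙 T) (𝟙 S) (by simp) (by simp) := by
  apply pullback.hom_ext
  · have e1 : pullback.map (c ≫ π) g (a ≫ π) g f (𝟙 T) (𝟙 S)
      (by rw [Category.comp_id, ← Category.assoc, h]) (by simp) ≫ pullback.fst _ _ =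
        pullback.fst _ _ ≫ f := pullback.lift_fst _ _ _
    have e2 : pullback.map (a ≫ π) g π g a (𝟙 T) (𝟙 S) (by simp) (by simp) ≫ pullback.fst _ _ =
        pullback.fst _ _ ≫ a := pullback.lift_fst _ _ _
    have e3 : pullback.map (c ≫ π) g π g c (𝟙 T) (𝟙 S) (by simp) (by simp) ≫ pullback.fst _ _ =
        pullback.fst _ _ ≫ c := pullback.lift_fst _ _ _
    rw [Category.assoc, e2, ← Category.assoc, e1, Category.assoc, h, e3]
  · have e1 : pullback.map (c ≫ π) g (a ≫ π) g f (𝟙 T) (𝟙 S)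
      (by rw [Category.comp_id, ← Category.assoc, h]) (by simp) ≫ pullback.snd _ _ =
        pullback.snd _ _ ≫ 𝟙 T := pullback.lift_snd _ _ _
    have e2 : pullback.map (a ≫ π) g π g a (𝟙 T) (𝟙 S) (by simp) (by simp) ≫ pullback.snd _ _ =
        pullback.snd _ _ ≫ 𝟙 T := pullback.lift_snd _ _ _
    have e3 : pullback.map (c ≫ π) g π g c (𝟙 T) (𝟙 S) (by simp) (by simp) ≫ pullback.snd _ _ =
        pullback.snd _ _ ≫ 𝟙 T := pullback.lift_snd _ _ _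
    rw [Category.assoc, e2, ← Category.assoc, e1, Category.assoc, Category.comp_id, e3]

/-- A pullback of a scheme glued from two charts is integral if the pullbacks of the charts are,
and the overlap is nonempty. -/
theorem isIntegral_of_charts (π : X ⟶ S) (g : T ⟶ S) (𝒰 : X.OpenCover) (a b c : 𝒰.I₀)
    (hI : ∀ i, i = a ∨ i = b ∨ i = c) (h : ∀ i, IsIntegral ↑(pullback (𝒰.f i ≫ π) g))
    (f₁ : 𝒰.X c ⟶ 𝒰.X a) (f₂ : 𝒰.X c ⟶ 𝒰.X b) (h₁ : f₁ ≫ 𝒰.f a = 𝒰.f c)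
    (h₂ : f₂ ≫ 𝒰.f b = 𝒰.f c) : IsIntegral ↑(pullback π g) := by
  let 𝒱 := Scheme.Pullback.openCoverOfLeft 𝒰 π g
  have h' : ∀ i, IsIntegral (𝒱.X i) := h
  have hle₁ : ∀ y : 𝒱.X c, ∃ z : 𝒱.X a, (𝒱.f a) z = (𝒱.f c) y := by
    intro y
    let m : 𝒱.X c ⟶ 𝒱.X a := pullback.map (𝒰.f c ≫ π) g (𝒰.f a ≫ π) g f₁ (𝟙 T) (𝟙 S)
      (by rw [Category.comp_id, ← Category.assoc, h₁]) (by simp)
    have hm : m ≫ 𝒱.f a = 𝒱.f c := map_comp_map π g h₁
    refine ⟨m y, ?_⟩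
    rw [← hm]
    rfl
  have hle₂ : ∀ y : 𝒱.X c, ∃ z : 𝒱.X b, (𝒱.f b) z = (𝒱.f c) y := by
    intro y
    let m : 𝒱.X c ⟶ 𝒱.X b := pullback.map (𝒰.f c ≫ π) g (𝒰.f b ≫ π) g f₂ (𝟙 T) (𝟙 S)
      (by rw [Category.comp_id, ← Category.assoc, h₂]) (by simp)
    have hm : m ≫ 𝒱.f b = 𝒱.f c := map_comp_map π g h₂
    refine ⟨m y, ?_⟩
    rw [← hm]
    rfl
  haveI : ∀ i, IsIntegral (𝒱.X i) := h'
  haveI hred : IsReduced ↑(pullback π g) := IsReduced.of_openCover _ 𝒱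
  have hirr : ∀ i, IsPreirreducible (Set.range (𝒱.f i)) := by
    intro i
    rw [← Set.image_univ]
    exact ((IrreducibleSpace.isIrreducible_univ (𝒱.X i)).image _
      (𝒱.f i).continuous.continuousOn).isPreirreducible
  obtain ⟨y⟩ := (h' c).nonempty
  obtain ⟨z₁, hz₁⟩ := hle₁ y
  obtain ⟨z₂, hz₂⟩ := hle₂ y
  haveI : IrreducibleSpace ↑(pullback π g) := by
    haveI : PreirreducibleSpace ↑(pullback π g) := by
      refine ⟨isPreirreducible_univ_of_union (U := Set.range (𝒱.f a)) (V := Set.range (𝒱.f b))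
        (𝒱.f a).isOpenEmbedding.isOpen_range (𝒱.f b).isOpenEmbedding.isOpen_range (hirr a)
        (hirr b) ⟨(𝒱.f c) y, ⟨z₁, hz₁⟩, ⟨z₂, hz₂⟩⟩ ?_⟩
      rw [Set.eq_univ_iff_forall]
      intro x
      obtain ⟨i, w, hw⟩ := 𝒱.exists_eq x
      rcases hI i with rfl | rfl | rfl
      · exact Or.inl ⟨w, hw⟩
      · exact Or.inr ⟨w, hw⟩
      · obtain ⟨z, hz⟩ := hle₁ w
        exact Or.inl ⟨z, hz.trans hw⟩
    exact ⟨⟨(𝒱.f c) y⟩⟩
  exact isIntegral_of_irreducibleSpace_of_isReduced _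

end Glue

theorem isIntegral_pullback (hN : ¬ ℓ ∣ N) :
    IsIntegral ↑(pullback (igusaTo N ℓ)
      (Spec.map (CommRingCat.ofHom (algebraMap (Lam ℓ) K)))) := by
  let 𝒰 := Scheme.IsLocallyDirected.openCover (span (fFin N ℓ) (fInf N ℓ))
  have hw₁ : fFin N ℓ ≫ 𝒰.f WalkingSpan.left = 𝒰.f none :=
    colimit.w (span (fFin N ℓ) (fInf N ℓ)) WalkingSpan.Hom.fst
  have hw₂ : fInf N ℓ ≫ 𝒰.f WalkingSpan.right = 𝒰.f none :=
    colimit.w (span (fFin N ℓ) (fInf N ℓ)) WalkingSpan.Hom.snd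
  have hmid : fFin N ℓ ≫ ιFin N ℓ ≫ igusaTo N ℓ =
      Spec.map (CommRingCat.ofHom (algebraMap (Lam ℓ) (chartAlgMid N ℓ))) := by
    rw [ιFin_igusaTo, ← Spec.map_comp, ← CommRingCat.ofHom_comp]
    congr 2
  have hmid' : 𝒰.f none ≫ igusaTo N ℓ =
      Spec.map (CommRingCat.ofHom (algebraMap (Lam ℓ) (chartAlgMid N ℓ))) :=
    (congrArg (fun z => z ≫ igusaTo N ℓ) hw₁.symm).trans ((Category.assoc _ _ _).trans hmid)
  refine isIntegral_of_charts (igusaTo N ℓ) _ 𝒰 WalkingSpan.left WalkingSpan.right none ?_ ?_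
    (fFin N ℓ) (fInf N ℓ) hw₁ hw₂
  · rintro (_ | _ | _)
    · exact Or.inr (Or.inr rfl)
    · exact Or.inl rfl
    · exact Or.inr (Or.inl rfl)
  · rintro (_ | _ | _)
    · exact isIntegral_piece (isDomain_mid hN) hmid'
    · exact isIntegral_piece (isDomain_fin hN) (ιFin_igusaTo N ℓ)
    · exact isIntegral_piece (isDomain_inf hN) (ιInf_igusaTo N ℓ)

end Fermat.Agent.Igusa
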